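import Fermat.Agent.S19.W.Defs

/-!
# S19 / W1 : API of `evD` (value of a function on a divisor) and `UnitOn`
-/

set_option autoImplicit false
set_option linter.unusedSectionVars false

noncomputable section

namespace Fermat.Agent.S19.W

open AlgebraicCurve IntermediateField Fermat.Agent.S24.FF Fermat.Agent.S27 Fermat.Agent.GAL.FF

variable {K F : Type*} [Field K] [Field F] [Algebra K F]

theorem UnitOn.zero {f : F} (hf : f ≠ 0) : UnitOn f (0 : Divisor K F) :=
  ⟨hf, fun _ h => absurd rfl h⟩
theorem UnitOn.add {f : F} {D E : Divisor K F} (hD : UnitOn f D) (hE : UnitOn f E) :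
    UnitOn f (D + E) :=
  ⟨hD.1, fun v h => by
    by_cases h1 : D v = 0
    · refine hE.2 v (fun h2 => h ?_)
      rw [Finsupp.add_apply, h1, h2, add_zero]
    · exact hD.2 v h1⟩
theorem UnitOn.neg {f : F} {D : Divisor K F} (hD : UnitOn f D) : UnitOn f (-D) :=
  ⟨hD.1, fun v h => hD.2 v (fun h1 => h (by rw [Finsupp.neg_apply, h1, neg_zero]))⟩
theorem UnitOn.sub {f : F} {D E : Divisor K F} (hD : UnitOn f D) (hE : UnitOn f E) :
    UnitOn f (D - E) := by
  rw [sub_eq_add_neg]
  exact hD.add hE.neg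
theorem UnitOn.zsmul {f : F} {D : Divisor K F} (hD : UnitOn f D) (m : ℤ) : UnitOn f (m • D) :=
  ⟨hD.1, fun v h => hD.2 v (fun h1 => h (by rw [Finsupp.smul_apply, h1, smul_zero]))⟩
theorem UnitOn.nsmul {f : F} {D : Divisor K F} (hD : UnitOn f D) (m : ℕ) : UnitOn f (m • D) :=
  ⟨hD.1, fun v h => hD.2 v (fun h1 => h (by rw [Finsupp.smul_apply, h1, smul_zero]))⟩
theorem UnitOn.sum {ι : Type*} {f : F} (hf : f ≠ 0) (s : Finset ι) (D : ι → Divisor K F)
    (h : ∀ i ∈ s, UnitOn f (D i)) : UnitOn f (∑ i ∈ s, D i) := by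
  classical
  induction s using Finset.induction_on with
  | empty => simpa using UnitOn.zero hf
  | insert i s hi ih =>
    rw [Finset.sum_insert hi]
    exact (h i (Finset.mem_insert_self i s)).add
      (ih fun j hj => h j (Finset.mem_insert_of_mem hj))
theorem UnitOn.mul {f g : F} {D : Divisor K F} (hf : UnitOn f D) (hg : UnitOn g D) :
    UnitOn (f * g) D :=
  ⟨mul_ne_zero hf.1 hg.1, fun v h => by rw [v.ord_mul hf.1 hg.1, hf.2 v h, hg.2 v h, add_zero]⟩
theorem UnitOn.inv {f : F} {D : Divisor K F} (hf : UnitOn f D) : UnitOn f⁻¹ D :=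
  ⟨inv_ne_zero hf.1, fun v h => by rw [v.ord_inv, hf.2 v h, neg_zero]⟩
theorem UnitOn.div {f g : F} {D : Divisor K F} (hf : UnitOn f D) (hg : UnitOn g D) :
    UnitOn (f / g) D := by
  rw [div_eq_mul_inv]
  exact hf.mul hg.inv
theorem UnitOn.pow {f : F} {D : Divisor K F} (hf : UnitOn f D) (m : ℕ) : UnitOn (f ^ m) D :=
  ⟨pow_ne_zero m hf.1, fun v h => by rw [ord_pow, hf.2 v h, mul_zero]⟩
theorem unitOn_algebraMap {c : K} (hc : c ≠ 0) (D : Divisor K F) :
    UnitOn (algebraMap K F c) D :=
  ⟨by simpa using hc, fun v _ => ord_algebraMap v c⟩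
theorem unitOn_single {f : F} (hf : f ≠ 0) {v : Place K F} (hv : v.ord f = 0) (m : ℤ) :
    UnitOn f (Finsupp.single v m) :=
  ⟨hf, fun w h => by
    classical
    rw [Finsupp.single_apply] at h
    split_ifs at h with h1
    · rw [← h1]; exact hv
    · exact absurd rfl h⟩

theorem evD_zero (f : F) : evD f (0 : Divisor K F) = 1 := Finsupp.prod_zero_index
theorem evD_single (f : F) (v : Place K F) (m : ℤ) :
    evD f (Finsupp.single v m) = val v f ^ m := Finsupp.prod_single_index (zpow_zero _)
theorem evD_one (D : Divisor K F) : evD (1 : F) D = 1 := by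
  unfold evD
  simp [Finsupp.prod]
theorem evD_neg (f : F) (D : Divisor K F) : evD f (-D) = (evD f D)⁻¹ := by
  unfold evD
  rw [Finsupp.prod_neg_index (fun _ => zpow_zero _)]
  simp [Finsupp.prod, zpow_neg, Finset.prod_inv_distrib]

variable [IsAlgClosed K] [IsFF1 K F]

theorem unitOn_divOf {f g : F} (hf : f ≠ 0) (h : ∀ v : Place K F, v.ord f = 0 ∨ v.ord g = 0) :
    UnitOn f (divOf K g) :=
  ⟨hf, fun v hv => (h v).resolve_right (by rwa [divOf_apply] at hv)⟩

/-- the value of `f` at a place of the support of `D` is nonzero. -/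
theorem evd_val_ne_zero {f : F} {D : Divisor K F} (h : UnitOn f D) {v : Place K F}
    (hv : D v ≠ 0) : val v f ≠ 0 :=
  (val_ne_zero_iff v h.1 (h.2 v hv).ge).mpr (h.2 v hv)

theorem evD_ne_zero {f : F} {D : Divisor K F} (h : UnitOn f D) : evD f D ≠ 0 := by
  unfold evD
  rw [Finsupp.prod, Finset.prod_ne_zero_iff]
  intro v hv
  exact zpow_ne_zero _ (evd_val_ne_zero h (Finsupp.mem_support_iff.mp hv))
theorem evD_add {f : F} {D E : Divisor K F} (hD : UnitOn f D) (hE : UnitOn f E) :
    evD f (D + E) = evD f D * evD f E := by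
  classical
  unfold evD
  apply Finsupp.prod_add_index
  · intro v _
    exact zpow_zero _
  · intro v hv a b
    have hne : val v f ≠ 0 := by
      rcases Finset.mem_union.mp hv with hv | hv
      · exact evd_val_ne_zero hD (Finsupp.mem_support_iff.mp hv)
      · exact evd_val_ne_zero hE (Finsupp.mem_support_iff.mp hv)
    exact zpow_add₀ hne a b
theorem evD_sub {f : F} {D E : Divisor K F} (hD : UnitOn f D) (hE : UnitOn f E) :
    evD f (D - E) = evD f D / evD f E := by
  rw [sub_eq_add_neg, evD_add hD hE.neg, evD_neg, div_eq_mul_inv]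
theorem evD_nsmul {f : F} {D : Divisor K F} (hD : UnitOn f D) (m : ℕ) :
    evD f (m • D) = evD f D ^ m := by
  induction m with
  | zero => rw [zero_smul, evD_zero, pow_zero]
  | succ m ih => rw [succ_nsmul, evD_add (hD.nsmul m) hD, ih, pow_succ]
theorem evD_zsmul {f : F} {D : Divisor K F} (hD : UnitOn f D) (m : ℤ) :
    evD f (m • D) = evD f D ^ m := by
  obtain ⟨k, rfl | rfl⟩ := m.eq_nat_or_neg
  · rw [natCast_zsmul, evD_nsmul hD, zpow_natCast]
  · rw [neg_smul, evD_neg, natCast_zsmul, evD_nsmul hD, zpow_neg, zpow_natCast]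
theorem evD_sum {ι : Type*} {f : F} (hf : f ≠ 0) (s : Finset ι) (D : ι → Divisor K F)
    (h : ∀ i ∈ s, UnitOn f (D i)) : evD f (∑ i ∈ s, D i) = ∏ i ∈ s, evD f (D i) := by
  classical
  induction s using Finset.induction_on with
  | empty => simp [evD_zero]
  | insert i s hi ih =>
    rw [Finset.sum_insert hi, Finset.prod_insert hi,
      evD_add (h i (Finset.mem_insert_self i s))
        (UnitOn.sum hf s D fun j hj => h j (Finset.mem_insert_of_mem hj)),
      ih fun j hj => h j (Finset.mem_insert_of_mem hj)]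
theorem evD_mul {f g : F} {D : Divisor K F} (hf : UnitOn f D) (hg : UnitOn g D) :
    evD (f * g) D = evD f D * evD g D := by
  unfold evD
  rw [← Finsupp.prod_mul]
  refine Finsupp.prod_congr fun v hv => ?_
  have hv' := Finsupp.mem_support_iff.mp hv
  rw [val_mul v (hf.2 v hv').ge (hg.2 v hv').ge, mul_zpow]
theorem evD_inv {f : F} {D : Divisor K F} (hf : UnitOn f D) : evD f⁻¹ D = (evD f D)⁻¹ := by
  have h1 : evD (f * f⁻¹) D = evD f D * evD f⁻¹ D := evD_mul hf hf.inv
  rw [mul_inv_cancel₀ hf.1, evD_one] at h1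
  exact eq_inv_of_mul_eq_one_right h1.symm
theorem evD_div {f g : F} {D : Divisor K F} (hf : UnitOn f D) (hg : UnitOn g D) :
    evD (f / g) D = evD f D / evD g D := by
  rw [div_eq_mul_inv, evD_mul hf hg.inv, evD_inv hg, div_eq_mul_inv]
theorem evD_pow {f : F} {D : Divisor K F} (hf : UnitOn f D) (m : ℕ) :
    evD (f ^ m) D = evD f D ^ m := by
  induction m with
  | zero => rw [pow_zero, evD_one, pow_zero]
  | succ m ih => rw [pow_succ, evD_mul (hf.pow m) hf, ih, pow_succ]
theorem evD_algebraMap {c : K} (hc : c ≠ 0) (D : Divisor K F) :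
    evD (algebraMap K F c) D = c ^ Divisor.degree D := by
  induction D using Finsupp.induction_linear with
  | zero => rw [evD_zero, map_zero, zpow_zero]
  | add D E hD hE =>
    rw [evD_add (unitOn_algebraMap hc D) (unitOn_algebraMap hc E), hD, hE, map_add, zpow_add₀ hc]
  | single v m => rw [evD_single, val_algebraMap, degree_single_one]

/-! ### semilinear automorphisms -/

theorem val_semi (g : SemilinearAut K F) (v : Place K F) (f : F) :
    val (g • v) (g • f) = SemilinearAut.baseAut g (val v f) := by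
  rcases le_or_gt 0 (v.ord f) with hf | hf
  · apply val_eq_of
    rw [← SemilinearAut.smul_algebraMap, ← smul_sub, SemilinearAut.ord_smul]
    rcases val_spec v hf with h | h
    · left
      exact congrArg (g • ·) h
    · exact Or.inr h
  · rw [val_of_ord_neg v hf, map_zero]
    apply val_of_ord_neg
    rwa [SemilinearAut.ord_smul]
theorem UnitOn.semi (g : SemilinearAut K F) {f : F} {D : Divisor K F} (h : UnitOn f D) :
    UnitOn (g • f) (g • D) := by
  refine ⟨by simpa using h.1, fun w hw => ?_⟩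
  rw [SemilinearAut.divisor_smul_apply] at hw
  have h1 := SemilinearAut.ord_smul g (g⁻¹ • w) f
  rw [smul_inv_smul] at h1
  rw [h1]
  exact h.2 _ hw
theorem evD_semi (g : SemilinearAut K F) (f : F) (D : Divisor K F) :
    evD (g • f) (g • D) = SemilinearAut.baseAut g (evD f D) := by
  unfold evD
  rw [SemilinearAut.divisor_smul_def, Finsupp.prod_mapDomain_index_inj (MulAction.injective g),
    Finsupp.prod, Finsupp.prod, map_prod]
  refine Finset.prod_congr rfl fun v _ => ?_
  rw [val_semi, map_zpow₀]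
theorem cls_semi (g : SemilinearAut K F) (D : Divisor K F) : cls (g • D) = g • cls D := by
  by_cases h : Divisor.degree D = 0
  · have h2 : Divisor.degree (g • D) = 0 := by rw [SemilinearAut.degree_smul, h]
    rw [cls_of_degree h, cls_of_degree h2, SemilinearAut.pic0_smul_mk]
    rfl
  · have h2 : Divisor.degree (g • D) ≠ 0 := by rwa [SemilinearAut.degree_smul]
    rw [cls_of_degree_ne h, cls_of_degree_ne h2]
    exact (smul_zero (A := Pic0 K F) g).symm

/-! ### two general facts -/

/-- functions with the same divisor differ by a constant. -/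
theorem exists_const_mul {f g : F} (hf : f ≠ 0) (hg : g ≠ 0) (h : ∀ v : Place K F, v.ord f = v.ord g) :
    ∃ c : K, c ≠ 0 ∧ g = algebraMap K F c * f := by
  have h1 : ∀ v : Place K F, 0 ≤ v.ord (g / f) := by
    intro v
    rw [div_eq_mul_inv, v.ord_mul hg (inv_ne_zero hf), v.ord_inv, h v]
    simp
  obtain ⟨c, hc⟩ := mem_range_of_forall_ord_nonneg h1
  refine ⟨c, ?_, ?_⟩
  · rintro rfl
    rw [map_zero] at hc
    exact div_ne_zero hg hf hc.symm
  · rw [hc, div_mul_cancel₀ _ hf]

/-- moving lemma: every divisor is linearly equivalent to a divisor avoiding a given finite set. -/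
theorem exists_move (D : Divisor K F) (S : Finset (Place K F)) :
    ∃ h : F, h ≠ 0 ∧ ∀ v ∈ S, (D + divOf K h) v = 0 := by
  obtain ⟨z, hz, hzS⟩ := exists_ord_eq S (fun v => - D v)
  refine ⟨z, hz, fun v hv => ?_⟩
  rw [Finsupp.add_apply, divOf_apply, hzS v hv, add_neg_cancel]

end Fermat.Agent.S19.W
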