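import Fermat.Agent.S19.W.Pairing

/-!
# S19 / W7 : adjunction  `e_{F'}(π^* P, Q) = e_F(P, π_* Q)`

Representatives `(D,u)` of `P`, `(E',w')` of `Q` with `E'` disjoint from `π^* D`; then `(π^* D, u)` represents
`π^* P` (`divOf_algebraMap`), `(π_* E', N w')` represents `π_* Q` (`pushforward_divOf`), and
`u(E') = u(π_* E')` (`evD_pushforward`), `w'(π^* D) = (N w')(D)` (`evD_norm`).
-/

set_option autoImplicit false

noncomputable section

namespace Fermat.Agent.S19.W

open AlgebraicCurve IntermediateField Fermat.Agent.S24.FF Fermat.Agent.S27 Fermat.Agent.GAL.FF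

variable {K F F' : Type*} [Field K] [Field F] [Field F']
  [Algebra K F] [Algebra K F'] [Algebra F F'] [IsScalarTower K F F']
  [IsAlgClosed K] [IsFF1 K F] [IsFF1 K F'] [Module.Finite F F']

theorem pullbackHom_cls {D : Divisor K F} (hD : Divisor.degree D = 0) :
    Pic0.pullbackHom F' (cls D) = cls (Divisor.pullback F' D) := by
  have h2 : Divisor.degree (Divisor.pullback F' D) = 0 := by
    rw [Divisor.degree_pullback, hD, mul_zero]
  rw [cls_of_degree hD, cls_of_degree h2, Pic0.pullbackHom_mk]
  rfl

theorem pushforwardHom_cls {E : Divisor K F'} (hE : Divisor.degree E = 0) :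
    Pic0.pushforwardHom K F F' (pushforwardNormFormula K F F') (cls E) =
      cls (Divisor.pushforward F E) := by
  have h2 : Divisor.degree (Divisor.pushforward F E) = 0 := by
    rw [Divisor.degree_pushforward, hE]
  rw [cls_of_degree hE, cls_of_degree h2, Pic0.pushforwardHom_mk]
  rfl

/-- `(π^* D, u)` represents `π^* P`. -/
theorem adjunction_isRep_pullback {n : ℕ} {P : Pic0 K F} {D : Divisor K F} {u : F}
    (h : IsRep n P D u) :
    IsRep n (Pic0.pullbackHom F' P) (Divisor.pullback F' D) (algebraMap F F' u) where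
  deg := by rw [Divisor.degree_pullback, h.deg, mul_zero]
  cls_eq := by rw [← h.cls_eq, pullbackHom_cls h.deg]
  ne := by simpa using h.ne
  ord w := by
    rw [Divisor.pullback_apply, Place.ord_restrict, h.ord]
    ring

/-- `(π_* E, N w)` represents `π_* Q`. -/
theorem adjunction_isRep_pushforward {n : ℕ} {Q : Pic0 K F'} {E : Divisor K F'} {w : F'}
    (h : IsRep n Q E w) :
    IsRep n (Pic0.pushforwardHom K F F' (pushforwardNormFormula K F F') Q)
      (Divisor.pushforward F E) (Algebra.norm F w) where
  deg := by rw [Divisor.degree_pushforward, h.deg]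
  cls_eq := by rw [← h.cls_eq, pushforwardHom_cls h.deg]
  ne := Algebra.norm_ne_zero_iff.mpr h.ne
  ord v := by
    have h1 := pushforwardNormFormula K F F' w h.ne (n • E)
      (fun x => by rw [h.ord x, Finsupp.smul_apply, nsmul_eq_mul]) v
    rw [← h1, map_nsmul, Finsupp.smul_apply, nsmul_eq_mul]

/-- `e_{F'}(π^* P, Q) = e_F(P, π_* Q)`. -/
theorem eW_pullback_left {n : ℕ} (hn : 0 < n) {P : Pic0 K F} {Q : Pic0 K F'} (hP : n • P = 0)
    (hQ : n • Q = 0) :
    eW n (Pic0.pullbackHom F' P) Q =
      eW n P (Pic0.pushforwardHom K F F' (pushforwardNormFormula K F F') Q) := by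
  obtain ⟨D, u, hDu, -⟩ := exists_isRep hP ∅
  obtain ⟨E, w, hEw, hdisj⟩ := exists_isRep hQ (Divisor.pullback F' D).support
  have hd : DisjD (Divisor.pullback F' D) E := by
    intro x
    by_cases hx : Divisor.pullback F' D x = 0
    · exact Or.inl hx
    · exact Or.inr (hdisj x (Finsupp.mem_support_iff.2 hx))
  have hd' : DisjD E (Divisor.pullback F' D) := fun x => (hd x).symm
  have hR1 := adjunction_isRep_pullback (F' := F') hDu
  have hR2 := adjunction_isRep_pushforward (F := F) hEw
  rw [eW_eq hn hR1 hEw hd, eW_eq hn hDu hR2 (disjD_pushforward hd),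
    evD_pushforward (hR1.unitOn hd), evD_norm (hEw.unitOn hd')]

end Fermat.Agent.S19.W
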