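import Fermat.Agent.FFDiv.Descend

/-!
# S19 / W10b : `n`-th roots of extended classes descend under constant field extensions

Generalisation of `S27.IsConstExt.torsion_descends` (`S27/B/Descend.lean`): copy its proof; the only change:
the classes `cls (τ_m D) - cls D` (instead of `cls (τ_m D)`) lie in the finite group `J[n]`, because
`n (τ_m c) = τ_m (n c) = τ_m (cls (ext B)) = cls (ext B) = n c` (`desc_mapDiv_extDiv`).
-/

set_option autoImplicit false

noncomputable section

namespace Fermat.Agent.S19.W

open AlgebraicCurve Fermat.Agent.S24.FF Fermat.Agent.S27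

variable {k K Fk F : Type*} [Field k] [Field K] [Field Fk] [Field F]
  [Algebra k K] [Algebra k Fk] [Algebra K F] [Algebra Fk F] [Algebra k F]
  [IsScalarTower k K F] [IsScalarTower k Fk F]
  [IsAlgClosed k] [CharZero k] [IsAlgClosed K] [CharZero K] [IsFF1 k Fk] [IsFF1 K F]

theorem div_descends (h : IsConstExt k K Fk F) (n : ℕ)
    (hfin : Finite (Pic0.torsion K F n)) (c : Pic0 K F) (B : Divisor k Fk)
    (hB : Divisor.degree B = 0) (hc : n • c = cls (h.extDiv B)) :
    ∃ D : Divisor k Fk, Divisor.degree D = 0 ∧ cls (h.extDiv D) = c :=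
  Fermat.Agent.FFDiv.div_descends h n hfin c B hB hc

end Fermat.Agent.S19.W
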