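import Fermat.Agent.S19.W.DivisibleC
import Fermat.Agent.S19.W.DivDescend
import Fermat.Agent.S27.B.Lefschetz
import Fermat.Agent.FFDiv.Main

/-!
# S19 / W10c : `Pic⁰` is divisible (`K` algebraically closed of characteristic `0`)

`c = cls D`; `exists_descentData K F D.support` gives a countable model `(k, Fk)` with `D = ext D₀`; embed `k → ℂ`
(`B.exists_ringHom_complex`), `exists_complexification`; over `ℂ`: `cls (ext_ℂ D₀) = n b` (`divisible_complex`), `b`
descends (`div_descends`, finiteness of the torsion: `card_torsion_complex`); injectivity of `ψ`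
(`IsConstExt.exists_pic0Map`) gives `cls D₀ = n b₀`; push to `K` with the `ψ` of `k → K`.
(Pattern: `S27/B/Lefschetz.lean`.)
-/

set_option autoImplicit false

noncomputable section

universe u v

namespace Fermat.Agent.S19.W

open AlgebraicCurve Fermat.Agent.S24.FF Fermat.Agent.S27

theorem pic0_divisible (K : Type u) (F : Type v) [Field K] [Field F] [Algebra K F]
    [IsAlgClosed K] [CharZero K] [IsFF1 K F] (n : ℕ) (hn : 0 < n) (c : Pic0 K F) :
    ∃ b : Pic0 K F, n • b = c :=
  Fermat.Agent.FFDiv.pic0_divisible K F n hn c

end Fermat.Agent.S19.W
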