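import Fermat.Agent.S19.W.Nondeg
import Fermat.Agent.S19.W.Divisible
import Fermat.Agent.S19.W.Adjunction

/-!
# S19 / W : the Weil pairing, summary

Exports: `eW`, `eW_eq` (formula for arbitrary disjoint representatives), `eW_add_right`, `eW_add_left`, `eW_swap`,
`eW_semi` (Galois equivariance), `eW_mul_level`, `eW_pullback_left`, `eW_nondeg`, `pic0_divisible`.
-/

set_option autoImplicit false

noncomputable section

universe u v

namespace Fermat.Agent.S19.W

open AlgebraicCurve Fermat.Agent.S24.FF Fermat.Agent.S27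

/-- **nondegeneracy of the Weil pairing**. -/
theorem eW_nondeg {K : Type u} {F : Type v} [Field K] [Field F] [Algebra K F] [IsAlgClosed K]
    [CharZero K] [IsFF1 K F] {n : ℕ} (hn : 0 < n) {Q : Pic0 K F} (hQ : n • Q = 0) (hQ0 : Q ≠ 0) :
    ∃ P : Pic0 K F, n • P = 0 ∧ eW n P Q ≠ 1 :=
  eW_nondeg_of_div hn (fun F' _ _ _ c => pic0_divisible K F' n hn c) hQ hQ0

end Fermat.Agent.S19.W
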