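import Fermat.Agent.S27.A.Api
import Fermat.Agent.GAL.FF.ExtNorm
import Fermat.Prelude.Def_AlgebraicCurve_BaseChangeGalois

/-!
# S19 / W : the Weil pairing on a function field `F/K` (`K` algebraically closed).  Definitions (no sorry).

* `evD f D`   : the value `f(D) = ∏_v f(v)^(D v)` of a function on a divisor
* `UnitOn f D`: `f ≠ 0` has neither zero nor pole on the support of `D`
* `IsRep n P D u` : `D` is a divisor of degree `0` and class `P`, and `div u = n D`
* `eW n P Q`  : the Weil pairing `u_P(D_Q) / u_Q(D_P)` (any representatives with disjoint supports)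
-/

set_option autoImplicit false

noncomputable section

namespace Fermat.Agent.S19.W

open AlgebraicCurve Fermat.Agent.S24.FF Fermat.Agent.S27 Fermat.Agent.GAL.FF

variable {K F : Type*} [Field K] [Field F] [Algebra K F]

/-- `f(D) = ∏_v f(v)^(D v)`. -/
def evD (f : F) (D : Divisor K F) : K := D.prod fun v n => val v f ^ n

/-- `f ≠ 0` has neither zero nor pole on the support of `D`. -/
def UnitOn (f : F) (D : Divisor K F) : Prop := f ≠ 0 ∧ ∀ v : Place K F, D v ≠ 0 → v.ord f = 0

/-- `D` has degree `0` and class `P`, and `div u = n D`. -/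
structure IsRep (n : ℕ) (P : Pic0 K F) (D : Divisor K F) (u : F) : Prop where
  deg : Divisor.degree D = 0
  cls_eq : cls D = P
  ne : u ≠ 0
  ord : ∀ v : Place K F, v.ord u = n * D v

/-- the supports of `D` and `E` are disjoint. -/
def DisjD (D E : Divisor K F) : Prop := ∀ v : Place K F, D v = 0 ∨ E v = 0

open Classical in
/-- **the Weil pairing** `e_n(P,Q) = u_P(D_Q) / u_Q(D_P)` (junk value `1` if there are no representatives,
i.e. if `P` or `Q` is not killed by `n`). -/
def eW (n : ℕ) (P Q : Pic0 K F) : K :=
  if h : ∃ (D E : Divisor K F) (u w : F), IsRep n P D u ∧ IsRep n Q E w ∧ DisjD D E then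
    evD h.choose_spec.choose_spec.choose h.choose_spec.choose /
      evD h.choose_spec.choose_spec.choose_spec.choose h.choose
  else 1

end Fermat.Agent.S19.W
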