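import Fermat.Agent.S19.W.Defs

/-!
# S19 / W3a : a local integral basis adapted to the places above `v`

Copy of the construction in `GAL/FF/ExtLocalBasis.lean` (`exists_localBasis`), keeping the information on
the basis elements `z (w,i)` : `ord_w = i`, `ord_w' = e_w'` for `w' ≠ w`.

Coefficient lemma: if `y = ∑ c_p z_p` is integral above `v` and `ord_w y ≥ i`, then `c_(w,j)(v) = 0` for
`j < i`.  (Otherwise let `j` be minimal with `c_(w,j)` a unit; then `ord_w y = j`: same computation as in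
`ExtLocalBasis.key`.)
-/

set_option autoImplicit false

noncomputable section

namespace Fermat.Agent.S19.W

open AlgebraicCurve IntermediateField Fermat.Agent.S24.FF Fermat.Agent.S27 Fermat.Agent.GAL.FF

variable {K F F' : Type*} [Field K] [Field F] [Field F']
  [Algebra K F] [Algebra K F'] [Algebra F F'] [IsScalarTower K F F']

/-- the key estimate, at a prescribed place `w` : if `c (w, a₀)` is a unit then `ord_w (∑ c z) ≤ a₀`. -/
theorem adaptedbasis_key [Algebra.IsIntegral F F'] (v : Place K F) (W : Finset (Place K F'))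
    (hW : ∀ w ∈ W, w.restrict F = v)
    (z : (Σ w : W, Fin ((w : Place K F').ramificationIndex F)) → F')
    (hz0 : ∀ p, z p ≠ 0) (hz1 : ∀ p, (p.1 : Place K F').ord (z p) = (p.2 : ℕ))
    (hz2 : ∀ p, ∀ w ∈ W, w ≠ p.1 → w.ord (z p) = w.ramificationIndex F)
    (c : (Σ w : W, Fin ((w : Place K F').ramificationIndex F)) → F)
    (hc : ∀ p, 0 ≤ v.ord (c p)) (w : W) (a₀ : Fin ((w : Place K F').ramificationIndex F))
    (hp0 : c ⟨w, a₀⟩ ≠ 0) (hp1 : v.ord (c ⟨w, a₀⟩) = 0) :
    ∑ p, c p • z p ≠ 0 ∧ (w : Place K F').ord (∑ p, c p • z p) ≤ (a₀ : ℕ) := by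
  classical
  -- the minimal `a` with unit coefficient
  obtain ⟨a, ha, hmin⟩ := Finset.exists_min_image
    (Finset.univ.filter fun a : Fin ((w : Place K F').ramificationIndex F) =>
      c ⟨w, a⟩ ≠ 0 ∧ v.ord (c ⟨w, a⟩) = 0) (fun a => (a : ℕ)) ⟨a₀, by simp [hp0, hp1]⟩
  have ha' : c ⟨w, a⟩ ≠ 0 ∧ v.ord (c ⟨w, a⟩) = 0 := by simpa using ha
  have haa₀ : ((a : ℕ) : ℤ) ≤ (a₀ : ℕ) := by
    have := hmin a₀ (by simp [hp0, hp1])
    omega
  have hwv : (w : Place K F').restrict F = v := hW w w.2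
  let p₁ : Σ w : W, Fin ((w : Place K F').ramificationIndex F) := ⟨w, a⟩
  have hT0 : c ⟨w, a⟩ • z ⟨w, a⟩ ≠ 0 := smul_ne_zero ha'.1 (hz0 _)
  have hT0ord : (w : Place K F').ord (c ⟨w, a⟩ • z ⟨w, a⟩) = (a : ℕ) := by
    rw [ExtLocalBasis.ord_smul _ ha'.1 (hz0 _), hwv, ha'.2, mul_zero, zero_add]
    exact hz1 ⟨w, a⟩
  have hrest : ∑ p ∈ Finset.univ.erase p₁, c p • z p ∈
      ExtLocalBasis.ordGE (w : Place K F') ((a : ℕ) + 1) := by
    apply Submodule.sum_mem
    rintro ⟨w', a'⟩ hp
    have hne : (⟨w', a'⟩ : Σ w : W, Fin ((w : Place K F').ramificationIndex F)) ≠ ⟨w, a⟩ :=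
      Finset.ne_of_mem_erase hp
    rw [ExtLocalBasis.mem_ordGE]
    rcases eq_or_ne (c ⟨w', a'⟩) 0 with h0 | h0
    · left; rw [h0, zero_smul]
    right
    rw [ExtLocalBasis.ord_smul _ h0 (hz0 _), hwv]
    have hcn := hc ⟨w', a'⟩
    have he : (0 : ℤ) < ((w : Place K F').ramificationIndex F : ℤ) := by
      have := (w : Place K F').ramificationIndex_pos (F := F)
      omega
    have ha_lt : ((a : ℕ) : ℤ) < ((w : Place K F').ramificationIndex F : ℤ) := by
      have := a.2
      omega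
    by_cases hw' : w' = w
    · subst hw'
      have hz := hz1 ⟨w', a'⟩
      simp only at hz
      rw [hz]
      rcases eq_or_lt_of_le hcn with h1 | h1
      · -- unit coefficient
        have h2 := hmin a' (by simp [h0, h1.symm])
        have h3 : a' ≠ a := by
          rintro rfl
          exact hne rfl
        have h4 : (a' : ℕ) ≠ (a : ℕ) := fun h => h3 (Fin.ext h)
        rw [← h1, mul_zero, zero_add]
        omega
      · have : ((w' : Place K F').ramificationIndex F : ℤ) * 1 ≤
            ((w' : Place K F').ramificationIndex F : ℤ) * v.ord (c ⟨w', a'⟩) :=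
          mul_le_mul_of_nonneg_left (by omega) he.le
        omega
    · have hz := hz2 ⟨w', a'⟩ w w.2 (fun h => hw' (Subtype.ext h).symm)
      rw [hz]
      have : 0 ≤ ((w : Place K F').ramificationIndex F : ℤ) * v.ord (c ⟨w', a'⟩) :=
        mul_nonneg he.le hcn
      omega
  rw [← Finset.add_sum_erase Finset.univ (fun p => c p • z p) (Finset.mem_univ p₁)]
  show c ⟨w, a⟩ • z ⟨w, a⟩ + _ ≠ 0 ∧ (w : Place K F').ord (c ⟨w, a⟩ • z ⟨w, a⟩ + _) ≤ _
  rcases ExtLocalBasis.mem_ordGE.mp hrest with h0 | h1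
  · rw [h0, add_zero]
    exact ⟨hT0, by rw [hT0ord]; exact haa₀⟩
  · rcases eq_or_ne (∑ p ∈ Finset.univ.erase p₁, c p • z p) 0 with h0 | h0
    · rw [h0, add_zero]
      exact ⟨hT0, by rw [hT0ord]; exact haa₀⟩
    have hord := ord_add_eq_of_lt (w : Place K F') hT0 h0 (by rw [hT0ord]; omega)
    refine ⟨?_, by rw [hord, hT0ord]; exact haa₀⟩
    intro hsum
    -- `T0 = - rest` contradicts the orders
    have : c ⟨w, a⟩ • z ⟨w, a⟩ =
        - ∑ p ∈ Finset.univ.erase p₁, c p • z p :=
      eq_neg_of_add_eq_zero_left hsum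
    have h2 := congrArg (w : Place K F').ord this
    rw [ord_neg, hT0ord] at h2
    omega

variable [IsAlgClosed K] [IsFF1 K F] [IsFF1 K F'] [Module.Finite F F']

theorem exists_adaptedBasis (v : Place K F) :
    ∃ b : Module.Basis (Σ w : v.fiber F', Fin ((w : Place K F').ramificationIndex F)) F F',
      (∀ p, b p ≠ 0 ∧ (p.1 : Place K F').ord (b p) = (p.2 : ℕ) ∧
        ∀ w ∈ v.fiber F', w ≠ p.1 → w.ord (b p) = w.ramificationIndex F) ∧
      (∀ y : F', (∀ w : Place K F', w.restrict F = v → 0 ≤ w.ord y) → ∀ p, 0 ≤ v.ord (b.repr y p)) ∧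
      (∀ y : F', (∀ w : Place K F', w.restrict F = v → 0 ≤ w.ord y) →
        ∀ (w : v.fiber F') (i : ℕ), (y = 0 ∨ (i : ℤ) ≤ (w : Place K F').ord y) →
          ∀ j : Fin ((w : Place K F').ramificationIndex F), (j : ℕ) < i →
            val v (b.repr y ⟨w, j⟩) = 0) := by
  classical
  have hW : ∀ w ∈ v.fiber F', w.restrict F = v := fun w hw => Place.mem_fiber.mp hw
  let I := Σ w : v.fiber F', Fin ((w : Place K F').ramificationIndex F)
  have hcard : Fintype.card I = Module.finrank F F' := by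
    have h1 : Fintype.card I = ∑ w : v.fiber F', (w : Place K F').ramificationIndex F := by
      rw [Fintype.card_sigma]
      simp
    have h2 : ∑ w : v.fiber F', (w : Place K F').ramificationIndex F =
        ∑ w ∈ v.fiber F', w.ramificationIndex F :=
      Finset.sum_coe_sort (v.fiber F') (fun w => w.ramificationIndex F)
    have h3 := sum_ramificationIndex (F' := F') v
    rw [← Nat.cast_sum] at h3
    rw [h1, h2]
    exact_mod_cast h3
  -- the elements `z`
  have hex : ∀ p : I, ∃ z : F', z ≠ 0 ∧ ∀ w ∈ v.fiber F', w.ord z =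
      if w = p.1 then ((p.2 : ℕ) : ℤ) else (w.ramificationIndex F : ℤ) := fun p =>
    exists_ord_eq (v.fiber F') _
  choose z hz0 hz using hex
  have hz1 : ∀ p : I, (p.1 : Place K F').ord (z p) = (p.2 : ℕ) := by
    intro p
    rw [hz p p.1 p.1.2, if_pos rfl]
  have hz2 : ∀ p : I, ∀ w ∈ v.fiber F', w ≠ p.1 → w.ord (z p) = w.ramificationIndex F := by
    intro p w hw hne
    rw [hz p w hw, if_neg hne]
  have key := ExtLocalBasis.key v (v.fiber F') hW z hz0 hz1 hz2
  have key' := adaptedbasis_key v (v.fiber F') hW z hz0 hz1 hz2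
  -- linear independence
  have hli : LinearIndependent F z := by
    rw [Fintype.linearIndependent_iff]
    intro g hg
    by_contra hcon
    push Not at hcon
    obtain ⟨s, m, hs0, -, -, h1, p₀, h2, h3, -⟩ := ExtLocalBasis.exists_scale v g hcon
    obtain ⟨w, -, h4, -⟩ := key (fun p => s * g p) h1 ⟨p₀, h2, h3⟩
    apply h4
    have : ∑ p, (s * g p) • z p = s • ∑ p, g p • z p := by
      rw [Finset.smul_sum]
      exact Finset.sum_congr rfl fun p _ => by rw [mul_smul]
    rw [this, hg, smul_zero]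
  have : Nonempty I := by
    rw [← Fintype.card_pos_iff, hcard]
    exact Module.finrank_pos
  let b₀ : Module.Basis I F F' := basisOfLinearIndependentOfCardEqFinrank hli hcard
  have hb₀ : ∀ p, b₀ p = z p := fun p => by
    simp [b₀]
  have hy : ∀ y : F', ∑ p, b₀.repr y p • z p = y := by
    intro y
    conv_rhs => rw [← b₀.sum_repr y]
    exact Finset.sum_congr rfl fun p _ => by rw [hb₀]
  -- integrality of the coefficients
  have hint : ∀ y : F', (∀ w : Place K F', w.restrict F = v → 0 ≤ w.ord y) →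
      ∀ p, 0 ≤ v.ord (b₀.repr y p) := by
    intro y h
    by_contra hcon
    push Not at hcon
    obtain ⟨q, hq⟩ := hcon
    have hq0 : b₀.repr y q ≠ 0 := ne_zero_of_ord_ne_zero v hq.ne
    obtain ⟨s, m, hs0, hsm, hm, h1, p₀, h2, h3, h5⟩ :=
      ExtLocalBasis.exists_scale v (fun p => b₀.repr y p) ⟨q, hq0⟩
    obtain ⟨w, hw, h4, h6⟩ := key (fun p => s * b₀.repr y p) h1 ⟨p₀, h2, h3⟩
    have hsum : ∑ p, (s * b₀.repr y p) • z p = s • y := by
      conv_rhs => rw [← hy y]
      rw [Finset.smul_sum]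
      exact Finset.sum_congr rfl fun p _ => by rw [mul_smul]
    rw [hsum] at h4 h6
    have hy0 : y ≠ 0 := by
      rintro rfl
      exact h4 (smul_zero _)
    rw [ExtLocalBasis.ord_smul w hs0 hy0, hW w hw, hsm] at h6
    have hmq := hm q hq0
    have hyw := h w (hW w hw)
    have he : (0 : ℤ) < (w.ramificationIndex F : ℤ) := by
      have := w.ramificationIndex_pos (F := F)
      omega
    have : (w.ramificationIndex F : ℤ) * 1 ≤ (w.ramificationIndex F : ℤ) * (-m) :=
      mul_le_mul_of_nonneg_left (by omega) he.le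
    omega
  refine ⟨b₀, fun p => ?_, hint, ?_⟩
  · rw [hb₀]
    exact ⟨hz0 p, hz1 p, hz2 p⟩
  · intro y h w i hi j hji
    have hc := hint y h
    rw [val_eq_zero_iff v (hc _)]
    by_contra hcon
    rw [not_or, not_lt] at hcon
    have h0 : v.ord (b₀.repr y ⟨w, j⟩) = 0 := le_antisymm hcon.2 (hc _)
    obtain ⟨h1, h2⟩ := key' (fun p => b₀.repr y p) hc w j hcon.1 h0
    rw [hy y] at h1 h2
    rcases hi with hi | hi
    · exact h1 hi
    · omega

end Fermat.Agent.S19.W
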