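import Fermat.Agent.S19.W.EvD

/-!
# S19 / W8b : deck transformations of `F'/F` acting on places, divisors and values
-/

set_option autoImplicit false

noncomputable section

namespace Fermat.Agent.S19.W

open AlgebraicCurve IntermediateField Fermat.Agent.S24.FF Fermat.Agent.S27 Fermat.Agent.GAL.FF

variable {K F F' : Type*} [Field K] [Field F] [Field F']
  [Algebra K F] [Algebra K F'] [Algebra F F'] [IsScalarTower K F F']
  [IsAlgClosed K] [IsFF1 K F] [IsFF1 K F'] [Module.Finite F F']

omit [IsAlgClosed K] [IsFF1 K F] [IsFF1 K F'] [Module.Finite F F'] in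
theorem ord_smul_deck (τ : F' ≃ₐ[F] F') (w : Place K F') (f : F') :
    ((τ.restrictScalars K) • w).ord (τ f) = w.ord f :=
  Place.ord_smul (τ.restrictScalars K) w f

omit [IsAlgClosed K] [IsFF1 K F] [IsFF1 K F'] in
theorem restrict_smul_deck (τ : F' ≃ₐ[F] F') (w : Place K F') :
    ((τ.restrictScalars K) • w).restrict F = w.restrict F := by
  refine place_ext_of_ord_nonneg fun f _ => ?_
  have h1 := ((τ.restrictScalars K) • w).ord_restrict (F := F) f
  have h2 := w.ord_restrict (F := F) f
  have h3 : ((τ.restrictScalars K) • w).ord (algebraMap F F' f) = w.ord (algebraMap F F' f) := by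
    conv_lhs => rw [← τ.commutes f]
    exact ord_smul_deck τ w _
  have e1 : (0 : ℤ) < (((τ.restrictScalars K) • w).ramificationIndex F : ℤ) := by
    exact_mod_cast ((τ.restrictScalars K) • w).ramificationIndex_pos (F := F)
  have e2 : (0 : ℤ) < (w.ramificationIndex F : ℤ) := by
    exact_mod_cast w.ramificationIndex_pos (F := F)
  rw [h1, h2] at h3
  constructor
  · intro h
    by_contra hc
    push Not at hc
    have := mul_nonneg e1.le h
    have := mul_neg_of_pos_of_neg e2 hc
    omega
  · intro h
    by_contra hc
    push Not at hc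
    have := mul_nonneg e2.le h
    have := mul_neg_of_pos_of_neg e1 hc
    omega

theorem pushforward_smul_deck (τ : F' ≃ₐ[F] F') (E : Divisor K F') :
    Divisor.pushforward F ((τ.restrictScalars K) • E) = Divisor.pushforward F E := by
  induction E using Finsupp.induction_linear with
  | zero => rw [smul_zero]
  | add D E hD hE => rw [smul_add, map_add, map_add, hD, hE]
  | single w n =>
    rw [Divisor.smul_single, Divisor.pushforward_single, Divisor.pushforward_single,
      restrict_smul_deck, GAL.FF.inertiaDeg_eq_one, GAL.FF.inertiaDeg_eq_one]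

omit [IsFF1 K F] [Module.Finite F F'] in
theorem val_smul_deck (τ : F' ≃ₐ[F] F') (w : Place K F') (f : F') :
    val ((τ.restrictScalars K) • w) (τ f) = val w f := by
  rcases lt_or_ge (w.ord f) 0 with h | h
  · rw [val_of_ord_neg w h, val_of_ord_neg _ (by rw [ord_smul_deck]; exact h)]
  · refine val_eq_of _ ?_
    have hc : τ (algebraMap K F' (val w f)) = algebraMap K F' (val w f) :=
      (τ.restrictScalars K).commutes _
    rcases val_spec w h with h1 | h1
    · left
      conv_lhs => rw [h1]
      exact hc
    · right
      rw [← hc, ← map_sub, ord_smul_deck]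
      exact h1

end Fermat.Agent.S19.W
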