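import Fermat.Agent.FFDiv.Complex

/-!
# S19 / W10a : `Pic⁰` of a function field over `ℂ` is divisible

Copy the proof of `S27.card_torsion_complex` (`S27/H/Main.lean`) up to its last step; instead of
`card_torsion_of_chart` use `F.exists_isMulChart` and `F.divisible` (see the beginning of the proof of
`card_torsion_of_chart` in `S27/F/Main.lean`: `hmul`, `hdiv`).
-/

set_option autoImplicit false

noncomputable section

universe v

namespace Fermat.Agent.S19.W

open AlgebraicCurve Fermat.Agent.S24.FF Fermat.Agent.S27

theorem divisible_complex (Fc : Type v) [Field Fc] [Algebra ℂ Fc] [IsFF1 ℂ Fc] (n : ℕ) (hn : 0 < n)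
    (c : Pic0 ℂ Fc) : ∃ b : Pic0 ℂ Fc, n • b = c :=
  Fermat.Agent.FFDiv.divisible_complex Fc n hn c

end Fermat.Agent.S19.W
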