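import Fermat.Agent.S19.W.AdaptedBasis

/-!
# S19 / W3b : the value of a norm  `(N g)(v) = ∏_{w ∣ v} g(w)^(e_w)`

`N g = det M`, `M = leftMulMatrix b g` for the adapted basis `b` (`Algebra.norm_eq_matrix_det`,
`Algebra.leftMulMatrix_eq_repr_mul`).  All entries are integral at `v`, so `val v (det M) = det M̄`,
`M̄ = M.map (val v)` (`Matrix.det_apply'`, `val_sum`, `val_prod`, `val_mul`).
For `q = (w,i)` and `c = g(w)`: `y = (g - c) b_q` has `ord_w y ≥ i+1`, `ord_w' y ≥ e_w'` (`w' ≠ w`), so by the
coefficient lemma `M̄ p q = c δ_pq` unless `p = (w,j)` with `j > i`.  So `M̄` is block triangular for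
`p ↦ p.2` with diagonal blocks (`Matrix.BlockTriangular.det`, `Matrix.det_diagonal`).
-/

set_option autoImplicit false

noncomputable section

namespace Fermat.Agent.S19.W

open AlgebraicCurve IntermediateField Fermat.Agent.S24.FF Fermat.Agent.S27 Fermat.Agent.GAL.FF

variable {K F F' : Type*} [Field K] [Field F] [Field F']
  [Algebra K F] [Algebra K F'] [Algebra F F'] [IsScalarTower K F F']
  [IsAlgClosed K] [IsFF1 K F] [IsFF1 K F'] [Module.Finite F F']

/-- determinant of a matrix which is triangular with respect to a rank function. -/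
theorem valnorm_det_of_rank {ι R : Type*} [Fintype ι] [DecidableEq ι] [CommRing R]
    (M : Matrix ι ι R) (r : ι → ℕ) (h : ∀ p q, p ≠ q → r p ≤ r q → M p q = 0) :
    M.det = ∏ p, M p p := by
  rw [Matrix.det_apply']
  rw [Finset.sum_eq_single (1 : Equiv.Perm ι)]
  · simp
  · intro σ _ hσ
    have hex : ∃ p, σ p ≠ p ∧ r (σ p) ≤ r p := by
      by_contra hcon
      push Not at hcon
      obtain ⟨p₀, hp₀⟩ : ∃ p, σ p ≠ p := by
        by_contra hall
        push Not at hall
        exact hσ (Equiv.ext hall)
      have h1 : ∑ p, r p < ∑ p, r (σ p) := by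
        apply Finset.sum_lt_sum
        · intro p _
          by_cases hp : σ p = p
          · rw [hp]
          · exact (hcon p hp).le
        · exact ⟨p₀, Finset.mem_univ _, hcon p₀ hp₀⟩
      rw [Equiv.sum_comp σ r] at h1
      exact lt_irrefl _ h1
    obtain ⟨p, hp1, hp2⟩ := hex
    have h0 : ∏ i, M (σ i) i = 0 := Finset.prod_eq_zero (Finset.mem_univ p) (h _ _ hp1 hp2)
    rw [h0, mul_zero]
  · intro h1
    exact absurd (Finset.mem_univ _) h1

omit [IsFF1 K F'] [Module.Finite F F'] [Field F'] [Algebra K F'] [Algebra F F']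
  [IsScalarTower K F F'] in
/-- the value of a determinant with integral entries. -/
theorem valnorm_val_det {ι : Type*} [Fintype ι] [DecidableEq ι] (v : Place K F)
    (M : Matrix ι ι F) (hM : ∀ p q, 0 ≤ v.ord (M p q)) :
    val v M.det = (Matrix.of fun p q => val v (M p q)).det := by
  rw [Matrix.det_apply', Matrix.det_apply']
  have hprod : ∀ σ : Equiv.Perm ι, 0 ≤ v.ord (∏ i, M (σ i) i) := fun σ =>
    ord_prod_nonneg v _ _ fun i _ => hM _ _
  have hsign : ∀ σ : Equiv.Perm ι, (((Equiv.Perm.sign σ : ℤˣ) : ℤ) : F) =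
      algebraMap K F (((Equiv.Perm.sign σ : ℤˣ) : ℤ) : K) := fun σ => (map_intCast _ _).symm
  rw [val_sum v]
  · refine Finset.sum_congr rfl fun σ _ => ?_
    rw [hsign, val_mul v (ord_algebraMap_nonneg v _) (hprod σ), val_algebraMap,
      val_prod v _ _ fun i _ => hM _ _]
    rfl
  · intro σ _
    rw [hsign]
    exact ord_mul_nonneg v (ord_algebraMap_nonneg v _) (hprod σ)

/-- **the value of a norm**. -/
theorem val_norm (v : Place K F) {g : F'} (hg0 : g ≠ 0)
    (hg : ∀ w : Place K F', w.restrict F = v → w.ord g = 0) :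
    val v (Algebra.norm F g) = ∏ w ∈ v.fiber F', val w g ^ w.ramificationIndex F := by
  classical
  obtain ⟨b, hb1, hb2, hb3⟩ := exists_adaptedBasis (F' := F') v
  -- the basis elements are integral above `v`
  have hbint : ∀ q, ∀ w : Place K F', w.restrict F = v → 0 ≤ w.ord (b q) := by
    intro q w hw
    by_cases hwq : w = q.1
    · rw [hwq, (hb1 q).2.1]
      positivity
    · rw [(hb1 q).2.2 w (Place.mem_fiber.mpr hw) hwq]
      positivity
  -- the error terms
  let c : (Σ w : v.fiber F', Fin ((w : Place K F').ramificationIndex F)) → K :=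
    fun q => val (q.1 : Place K F') g
  let y : (Σ w : v.fiber F', Fin ((w : Place K F').ramificationIndex F)) → F' :=
    fun q => (g - algebraMap K F' (c q)) * b q
  have hgc : ∀ q, ∀ w : Place K F', w.restrict F = v → 0 ≤ w.ord (g - algebraMap K F' (c q)) :=
    fun q w hw => ord_sub_nonneg w (hg w hw).ge (ord_algebraMap_nonneg w _)
  have hyint : ∀ q, ∀ w : Place K F', w.restrict F = v → 0 ≤ w.ord (y q) := fun q w hw =>
    ord_mul_nonneg w (hgc q w hw) (hbint q w hw)
  have hy0 : ∀ p q, (p.2 : ℕ) ≤ (q.2 : ℕ) → val v (b.repr (y q) p) = 0 := by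
    intro p q hpq
    rcases eq_or_ne (g - algebraMap K F' (c q)) 0 with h0 | h0
    · have : y q = 0 := by show _ * _ = _; rw [h0, zero_mul]
      rw [this, map_zero]
      simp
    have hord : ∀ w : Place K F', w.ord (y q) = w.ord (g - algebraMap K F' (c q)) + w.ord (b q) :=
      fun w => w.ord_mul h0 (hb1 q).1
    obtain ⟨w, j⟩ := p
    by_cases hw : w = q.1
    · subst hw
      refine hb3 (y q) (hyint q) q.1 ((q.2 : ℕ) + 1) (Or.inr ?_) j (Nat.lt_succ_of_le hpq)
      rw [hord, (hb1 q).2.1]
      have h1 : 0 < (q.1 : Place K F').ord (g - algebraMap K F' (c q)) :=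
        (val_spec' (q.1 : Place K F') (hg _ (Place.mem_fiber.mp q.1.2)).ge).resolve_left h0
      push_cast
      omega
    · refine hb3 (y q) (hyint q) w ((w : Place K F').ramificationIndex F) (Or.inr ?_) j j.2
      rw [hord, (hb1 q).2.2 w w.2 (fun h => hw (Subtype.ext h))]
      have h1 := hgc q w (Place.mem_fiber.mp w.2)
      omega
  -- the entries of the matrix
  have hM : ∀ p q, Algebra.leftMulMatrix b g p q =
      algebraMap K F (if q = p then c q else 0) + b.repr (y q) p := by
    intro p q
    rw [Algebra.leftMulMatrix_eq_repr_mul]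
    have e : g * b q = algebraMap K F (c q) • b q + y q := by
      show _ = _ + (g - algebraMap K F' (c q)) * b q
      rw [Algebra.smul_def, ← IsScalarTower.algebraMap_apply]
      ring
    rw [e, map_add, map_smul, Finsupp.add_apply, Finsupp.smul_apply, Module.Basis.repr_self,
      Finsupp.single_apply, smul_eq_mul]
    split_ifs <;> simp
  have hyr : ∀ p q, 0 ≤ v.ord (b.repr (y q) p) := fun p q => hb2 (y q) (hyint q) p
  have hMint : ∀ p q, 0 ≤ v.ord (Algebra.leftMulMatrix b g p q) := by
    intro p q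
    rw [hM]
    exact ord_add_nonneg v (ord_algebraMap_nonneg v _) (hyr p q)
  have hMval : ∀ p q, (p.2 : ℕ) ≤ (q.2 : ℕ) →
      val v (Algebra.leftMulMatrix b g p q) = if q = p then c q else 0 := by
    intro p q hpq
    rw [hM, val_add v (ord_algebraMap_nonneg v _) (hyr p q), val_algebraMap, hy0 p q hpq, add_zero]
  rw [Algebra.norm_eq_matrix_det b g, valnorm_val_det v _ hMint,
    valnorm_det_of_rank _ (fun p => (p.2 : ℕ))]
  · have e : ∀ p, (Matrix.of fun p q => val v (Algebra.leftMulMatrix b g p q)) p p = c p := by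
      intro p
      rw [Matrix.of_apply, hMval p p le_rfl, if_pos rfl]
    simp only [e]
    rw [Fintype.prod_sigma]
    simp only [c, Finset.prod_const, Finset.card_univ, Fintype.card_fin]
    exact Finset.prod_coe_sort (v.fiber F') (fun w => val w g ^ w.ramificationIndex F)
  · intro p q hpq hle
    rw [Matrix.of_apply, hMval p q hle, if_neg (Ne.symm hpq)]

end Fermat.Agent.S19.W
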