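import Fermat.Agent.S19.W.EvD
import Fermat.Agent.S19.W.ValNorm

/-!
# S19 / W2 : values of functions on divisors and finite extensions `F'/F`

`f(π_* E) = (π^* f)(E)` and `(N g)(D) = g(π^* D)`.
-/

set_option autoImplicit false
set_option linter.unusedSectionVars false

noncomputable section

namespace Fermat.Agent.S19.W

open AlgebraicCurve IntermediateField Fermat.Agent.S24.FF Fermat.Agent.S27 Fermat.Agent.GAL.FF

variable {K F F' : Type*} [Field K] [Field F] [Field F']
  [Algebra K F] [Algebra K F'] [Algebra F F'] [IsScalarTower K F F']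
  [IsAlgClosed K] [IsFF1 K F] [IsFF1 K F'] [Module.Finite F F']

theorem evext_ram_pos (w : Place K F') : (0 : ℤ) < (w.ramificationIndex F : ℤ) := by
  exact_mod_cast w.ramificationIndex_pos (F := F)

theorem evext_ord_eq_zero_iff (w : Place K F') (f : F) :
    w.ord (algebraMap F F' f) = 0 ↔ (w.restrict F).ord f = 0 := by
  rw [w.ord_restrict f, mul_eq_zero]
  have := evext_ram_pos (F := F) w
  constructor
  · rintro (h | h)
    · omega
    · exact h
  · exact Or.inr

theorem evext_pullback_ne_zero_iff (D : Divisor K F) (w : Place K F') :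
    Divisor.pullback F' D w ≠ 0 ↔ D (w.restrict F) ≠ 0 := by
  rw [Divisor.pullback_apply, mul_ne_zero_iff]
  have := evext_ram_pos (F := F) w
  constructor
  · exact fun h => h.2
  · exact fun h => ⟨by omega, h⟩

theorem val_algebraMap_ext (w : Place K F') (f : F) :
    val w (algebraMap F F' f) = val (w.restrict F) f := by
  have he := evext_ram_pos (F := F) w
  rcases lt_or_ge ((w.restrict F).ord f) 0 with h | h
  · rw [val_of_ord_neg (w.restrict F) h, val_of_ord_neg w]
    rw [w.ord_restrict f]
    exact mul_neg_of_pos_of_neg he h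
  · apply val_eq_of
    rcases val_spec (w.restrict F) h with h1 | h1
    · left
      conv_lhs => rw [h1]
      rw [← IsScalarTower.algebraMap_apply]
    · right
      rw [IsScalarTower.algebraMap_apply K F F', ← map_sub, w.ord_restrict]
      exact mul_pos he h1

theorem unitOn_algebraMap_iff (f : F) (D : Divisor K F) :
    UnitOn (algebraMap F F' f) (Divisor.pullback F' D) ↔ UnitOn f D := by
  constructor
  · rintro ⟨h0, h⟩
    refine ⟨fun hf => h0 (by rw [hf, map_zero]), fun v hv => ?_⟩
    obtain ⟨w, rfl⟩ := exists_restrict_eq (F' := F') v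
    exact (evext_ord_eq_zero_iff w f).1 (h w ((evext_pullback_ne_zero_iff D w).2 hv))
  · rintro ⟨h0, h⟩
    refine ⟨by simpa using h0, fun w hw => ?_⟩
    exact (evext_ord_eq_zero_iff w f).2 (h _ ((evext_pullback_ne_zero_iff D w).1 hw))

theorem evext_exists_of_pushforward_ne_zero {E : Divisor K F'} {v : Place K F}
    (h : Divisor.pushforward F E v ≠ 0) : ∃ w : Place K F', E w ≠ 0 ∧ w.restrict F = v := by
  classical
  rw [Divisor.pushforward_apply] at h
  obtain ⟨w, hw, hne⟩ := Finset.exists_ne_zero_of_sum_ne_zero h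
  refine ⟨w, Finsupp.mem_support_iff.1 hw, ?_⟩
  by_contra hcon
  exact hne (if_neg hcon)

theorem unitOn_pushforward {f : F} {E : Divisor K F'} (h : UnitOn (algebraMap F F' f) E) :
    UnitOn f (Divisor.pushforward F E) := by
  refine ⟨fun hf => h.1 (by rw [hf, map_zero]), fun v hv => ?_⟩
  obtain ⟨w, hw, rfl⟩ := evext_exists_of_pushforward_ne_zero hv
  exact (evext_ord_eq_zero_iff w f).1 (h.2 w hw)

/-- `f(π_* E) = (π^* f)(E)`. -/
theorem evD_pushforward {f : F} {E : Divisor K F'} (h : UnitOn (algebraMap F F' f) E) :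
    evD f (Divisor.pushforward F E) = evD (algebraMap F F' f) E := by
  have hf : f ≠ 0 := fun hf => h.1 (by rw [hf, map_zero])
  have h1 : Divisor.pushforward F E
      = ∑ w ∈ E.support, Finsupp.single (w.restrict F) (E w) := by
    conv_lhs => rw [← Finsupp.sum_single E]
    rw [Finsupp.sum, map_sum]
    refine Finset.sum_congr rfl fun w _ => ?_
    rw [Divisor.pushforward_single, GAL.FF.inertiaDeg_eq_one, Nat.cast_one, mul_one]
  rw [h1, evD_sum hf _ _ fun w hw =>
    unitOn_single hf ((evext_ord_eq_zero_iff w f).1 (h.2 w (Finsupp.mem_support_iff.1 hw))) _]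
  unfold evD
  rw [Finsupp.prod]
  refine Finset.prod_congr rfl fun w _ => ?_
  have := evD_single f (w.restrict F) (E w)
  unfold evD at this
  rw [this, val_algebraMap_ext]

theorem unitOn_norm {g : F'} {D : Divisor K F} (h : UnitOn g (Divisor.pullback F' D)) :
    UnitOn (Algebra.norm F g) D := by
  refine ⟨Algebra.norm_ne_zero_iff.mpr h.1, fun v hv => ?_⟩
  refine ord_norm_eq_zero v fun w hw => h.2 w ?_
  rw [evext_pullback_ne_zero_iff, hw]
  exact hv

/-- `(N g)(D) = g(π^* D)`. -/
theorem evD_norm {g : F'} {D : Divisor K F} (h : UnitOn g (Divisor.pullback F' D)) :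
    evD (Algebra.norm F g) D = evD g (Divisor.pullback F' D) := by
  have hg : g ≠ 0 := h.1
  have hord : ∀ v ∈ D.support, ∀ w : Place K F', w.restrict F = v → w.ord g = 0 := by
    intro v hv w hw
    refine h.2 w ?_
    rw [evext_pullback_ne_zero_iff, hw]
    exact Finsupp.mem_support_iff.1 hv
  have h1 : Divisor.pullback F' D
      = ∑ v ∈ D.support, ∑ w ∈ v.fiber F', Finsupp.single w (D v * w.ramificationIndex F) := by
    conv_lhs => rw [← Finsupp.sum_single D]
    rw [Finsupp.sum, map_sum]
    exact Finset.sum_congr rfl fun v _ => Divisor.pullback_single v _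
  have hU : ∀ v ∈ D.support, ∀ w ∈ v.fiber F',
      UnitOn g (Finsupp.single w (D v * (w.ramificationIndex F : ℤ))) := fun v hv w hw =>
    unitOn_single hg (hord v hv w (Place.mem_fiber.1 hw)) _
  rw [h1, evD_sum hg _ _ fun v hv => UnitOn.sum hg _ _ (hU v hv)]
  have h2 : evD (Algebra.norm F g) D = ∏ v ∈ D.support, val v (Algebra.norm F g) ^ D v := rfl
  rw [h2]
  refine Finset.prod_congr rfl fun v hv => ?_
  rw [evD_sum hg _ _ (hU v hv), val_norm v hg (hord v hv), ← Finset.prod_zpow]
  refine Finset.prod_congr rfl fun w _ => ?_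
  rw [evD_single, mul_comm, zpow_mul, zpow_natCast]

/-- disjointness and push forward. -/
theorem disjD_pushforward {D : Divisor K F} {E : Divisor K F'}
    (h : DisjD (Divisor.pullback F' D) E) : DisjD D (Divisor.pushforward F E) := by
  intro v
  by_cases hv : D v = 0
  · exact Or.inl hv
  · right
    by_contra hne
    obtain ⟨w, hw, rfl⟩ := evext_exists_of_pushforward_ne_zero hne
    rcases h w with h1 | h1
    · exact (evext_pullback_ne_zero_iff D w).2 hv h1
    · exact hw h1

end Fermat.Agent.S19.W
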