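import Fermat.Agent.S19.W.Defs

/-!
# S19 / W8 : the cyclic cover `F' = F(y)`, `y^ℓ = a`

`F' := AdjoinRoot (X^ℓ - C a)`, irreducible by `X_pow_sub_C_irreducible_of_prime`; `Algebra K F'` via `F`
(`IsScalarTower`), `IsFF1 K F'` by `GAL.FF.isFF1_of_finite`; `ζ` a primitive `ℓ`-th root of unity of `K`;
`τ` : `AdjoinRoot.liftAlgHom`/`Mathlib.FieldTheory.KummerExtension` (`autAdjoinRootXPowSubC`).
-/

set_option autoImplicit false

noncomputable section

universe u v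

namespace Fermat.Agent.S19.W

open AlgebraicCurve IntermediateField Fermat.Agent.S24.FF Fermat.Agent.S27 Fermat.Agent.GAL.FF

variable {K : Type u} {F : Type v} [Field K] [Field F] [Algebra K F] [IsAlgClosed K] [CharZero K]
  [IsFF1 K F]

theorem exists_cyclic_cover {ℓ : ℕ} (hℓ : ℓ.Prime) {a : F} (ha : ∀ b : F, b ^ ℓ ≠ a) :
    ∃ (F' : Type v) (_ : Field F') (_ : Algebra K F') (_ : Algebra F F') (_ : IsScalarTower K F F')
      (_ : IsFF1 K F') (_ : Module.Finite F F') (y : F') (τ : F' ≃ₐ[F] F') (ζ : K),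
      y ^ ℓ = algebraMap F F' a ∧ ζ ≠ 0 ∧ ζ ≠ 1 ∧ τ y = algebraMap K F' ζ * y := by
  have hirr : Irreducible (Polynomial.X ^ ℓ - Polynomial.C a : Polynomial F) :=
    X_pow_sub_C_irreducible_of_prime hℓ ha
  have : Fact (Irreducible (Polynomial.X ^ ℓ - Polynomial.C a : Polynomial F)) := ⟨hirr⟩
  have : NeZero ℓ := ⟨hℓ.ne_zero⟩
  have hmonic : (Polynomial.X ^ ℓ - Polynomial.C a : Polynomial F).Monic :=
    Polynomial.monic_X_pow_sub_C a hℓ.ne_zero
  have hfin : Module.Finite F (AdjoinRoot (Polynomial.X ^ ℓ - Polynomial.C a : Polynomial F)) :=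
    hmonic.finite_adjoinRoot
  obtain ⟨ζ, hζ⟩ : ∃ ζ : K, IsPrimitiveRoot ζ ℓ := HasEnoughRootsOfUnity.exists_primitiveRoot K ℓ
  have hζF : (algebraMap K F ζ) ^ ℓ = 1 := by rw [← map_pow, hζ.pow_eq_one, map_one]
  refine ⟨AdjoinRoot (Polynomial.X ^ ℓ - Polynomial.C a : Polynomial F), inferInstance,
    inferInstance, inferInstance, inferInstance, isFF1_of_finite (F := F), hfin, AdjoinRoot.root _,
    autAdjoinRootXPowSubC ℓ a (rootsOfUnity.mkOfPowEq _ hζF), ζ, ?_, hζ.ne_zero hℓ.ne_zero,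
    hζ.ne_one hℓ.one_lt, ?_⟩
  · rw [root_X_pow_sub_C_pow, AdjoinRoot.algebraMap_eq]
  · rw [autAdjoinRootXPowSubC_root, rootsOfUnity.val_mkOfPowEq_coe, Algebra.smul_def,
      ← IsScalarTower.algebraMap_apply]

end Fermat.Agent.S19.W
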