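import Fermat.Agent.S19.W.Pairing
import Fermat.Agent.S19.W.Kummer
import Fermat.Agent.S19.W.Deck
import Fermat.Agent.S27.A.Riemann

/-!
# S19 / W9 : nondegeneracy of the Weil pairing, given the divisibility of `Pic⁰` of the cyclic covers

`Q = cls E₀ ≠ 0`, `ℓ E₀ = div a`; `a` is not an `ℓ`-th power; `F' = F(y)`, `y^ℓ = a`, `τ y = ζ y`;
`div y = π^* E₀`.  `x'` a place of `F'` outside `S = supp (div y)`, `𝔡 = τ x' - x' = n 𝔮 + div g` with `𝔮`
avoiding `S` (`hdiv`, `exists_move`).  `D = π_* 𝔮`, `u = (N g)⁻¹` : `div u = n D` (`pushforward_smul_deck`,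
`pushforward_divOf`), `P = cls D`.  `(E₀, a^(n/ℓ))` represents `Q`.
`u(E₀) = g(π^* E₀)⁻¹ = g(div y)⁻¹` (`evD_norm`), `a^(n/ℓ)(π_* 𝔮) = y^n(𝔮) = y(n 𝔮) = y(𝔡)/y(div g)`
(`evD_pushforward`), so `e_n(P,Q) = y(div g)/(g(div y) y(𝔡)) = 1/y(𝔡)` (reciprocity on `F'`) and
`y(𝔡) = y(τ x')/y(x') = ζ⁻¹` (`val_smul_deck`).
-/

set_option autoImplicit false

noncomputable section

universe u v

namespace Fermat.Agent.S19.W

open AlgebraicCurve IntermediateField Fermat.Agent.S24.FF Fermat.Agent.S27 Fermat.Agent.GAL.FF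

variable {K : Type u} {F : Type v} [Field K] [Field F] [Algebra K F] [IsAlgClosed K] [CharZero K]
  [IsFF1 K F]

section core

variable {F' : Type*} [Field F'] [Algebra K F'] [Algebra F F'] [IsScalarTower K F F'] [IsFF1 K F']
  [Module.Finite F F']

omit [CharZero K] [IsFF1 K F] in
/-- `div y = π^* E₀`. -/
theorem nondeg_divOf_root {ℓ : ℕ} (hℓ : 0 < ℓ) {E₀ : Divisor K F} {a : F}
    (ha : ∀ v : Place K F, v.ord a = ℓ * E₀ v) {y : F'} (hy : y ^ ℓ = algebraMap F F' a) :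
    divOf K y = Divisor.pullback F' E₀ := by
  ext w
  rw [divOf_apply, Divisor.pullback_apply]
  have h1 : w.ord (y ^ ℓ) = ℓ * w.ord y := ord_pow w y ℓ
  rw [hy, w.ord_restrict a, ha] at h1
  have hℓ' : (ℓ : ℤ) ≠ 0 := by exact_mod_cast hℓ.ne'
  apply mul_left_cancel₀ hℓ'
  rw [← h1]
  ring

/-- the computation on the cyclic cover. -/
theorem nondeg_core {n ℓ : ℕ} (hn : 0 < n) (hℓ : 0 < ℓ) (hℓn : ℓ ∣ n)
    (hdiv : ∀ c : Pic0 K F', ∃ b : Pic0 K F', n • b = c)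
    {E₀ : Divisor K F} (hE₀ : Divisor.degree E₀ = 0) {a : F} (ha0 : a ≠ 0)
    (ha : ∀ v : Place K F, v.ord a = ℓ * E₀ v)
    {y : F'} (τ : F' ≃ₐ[F] F') {ζ : K} (hy : y ^ ℓ = algebraMap F F' a) (hζ0 : ζ ≠ 0)
    (hζ1 : ζ ≠ 1) (hτ : τ y = algebraMap K F' ζ * y) :
    ∃ P : Pic0 K F, n • P = 0 ∧ eW n P (cls E₀) ≠ 1 := by
  classical
  have hy0 : y ≠ 0 := by
    rintro rfl
    rw [zero_pow hℓ.ne'] at hy
    exact ha0 ((map_eq_zero _).mp hy.symm)
  have hdy : divOf K y = Divisor.pullback F' E₀ := nondeg_divOf_root hℓ ha hy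
  set σ : F' ≃ₐ[K] F' := τ.restrictScalars K with hσ
  -- the place `x`
  have hinf := infinite_place (K := K) (F := F')
  obtain ⟨x, hx⟩ := Infinite.exists_notMem_finset (divOf K y).support
  have hx0 : x.ord y = 0 := by simpa using hx
  have hζF : algebraMap K F' ζ ≠ 0 := by simpa using hζ0
  have hσx0 : (σ • x).ord y = 0 := by
    have h1 := ord_smul_deck τ x y
    rw [hτ, Place.ord_mul _ hζF hy0, ord_algebraMap, zero_add] at h1
    rw [h1, hx0]
  set d : Divisor K F' := Finsupp.single (σ • x) 1 - Finsupp.single x 1 with hd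
  have hdegd : Divisor.degree d = 0 := by
    rw [hd, map_sub, degree_single_one, degree_single_one, sub_self]
  obtain ⟨b, hb⟩ := hdiv (cls d)
  obtain ⟨q₀, hq₀deg, hq₀⟩ := cls_surjective b
  obtain ⟨h, hh0, hh⟩ := exists_move q₀ (divOf K y).support
  set q : Divisor K F' := q₀ + divOf K h with hq
  have hqdeg : Divisor.degree q = 0 := by rw [hq, map_add, hq₀deg, degree_divOf, add_zero]
  have hqcls : cls q = b := by
    rw [← hq₀, cls_eq_iff hqdeg hq₀deg]
    exact ⟨h, hh0, fun v => by simp [hq]⟩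
  have hqy : ∀ w : Place K F', w.ord y = 0 ∨ q w = 0 := by
    intro w
    by_cases hw : w.ord y = 0
    · exact Or.inl hw
    · exact Or.inr (hh w (by simpa using hw))
  -- the function `g`
  have hnq : Divisor.degree (n • q) = 0 := by rw [map_nsmul, hqdeg, smul_zero]
  obtain ⟨g, hg0, hg⟩ := (cls_eq_iff hdegd hnq).mp (by rw [cls_nsmul hqdeg, hqcls, hb])
  have hdg : divOf K g = d - n • q := by
    ext w
    rw [divOf_apply, Finsupp.sub_apply, hg w]
  have hgy : ∀ w : Place K F', w.ord g = 0 ∨ w.ord y = 0 := by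
    intro w
    by_cases hw : w.ord y = 0
    · exact Or.inr hw
    · left
      have h1 : q w = 0 := (hqy w).resolve_left hw
      have h2 : w ≠ x := by rintro rfl; exact hw hx0
      have h3 : w ≠ σ • x := by rintro rfl; exact hw hσx0
      rw [← hg w, hd, Finsupp.sub_apply, Finsupp.smul_apply, h1, Finsupp.single_apply,
        Finsupp.single_apply, if_neg (Ne.symm h3), if_neg (Ne.symm h2)]
      simp
  -- the representatives
  set D : Divisor K F := Divisor.pushforward F q with hD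
  set N : F := Algebra.norm F g with hN
  have hN0 : N ≠ 0 := Algebra.norm_ne_zero_iff.mpr hg0
  have hpushd : Divisor.pushforward F d = 0 := by
    rw [hd, map_sub, ← Divisor.smul_single, hσ, pushforward_smul_deck, sub_self]
  have hdN : divOf K N = - (n • D) := by
    rw [hN, ← pushforward_divOf, hdg, map_sub, hpushd, map_nsmul, zero_sub]
  have hP : IsRep n (cls D) D N⁻¹ :=
    { deg := by rw [hD, Divisor.degree_pushforward, hqdeg]
      cls_eq := rfl
      ne := inv_ne_zero hN0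
      ord := fun v => by
        have h1 : v.ord N = - (n * D v) := by
          rw [← divOf_apply (K := K), hdN]
          simp
        rw [v.ord_inv, h1, neg_neg] }
  have hQ : IsRep n (cls E₀) E₀ (a ^ (n / ℓ)) :=
    { deg := hE₀
      cls_eq := rfl
      ne := pow_ne_zero _ ha0
      ord := fun v => by
        rw [ord_pow, ha, ← mul_assoc]
        congr 1
        exact_mod_cast Nat.div_mul_cancel hℓn }
  have hdisj' : DisjD (Divisor.pullback F' E₀) q := by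
    intro w
    rw [← hdy, divOf_apply]
    exact hqy w
  have hdisj : DisjD D E₀ := fun v => (disjD_pushforward hdisj' v).symm
  refine ⟨cls D, hP.nsmul_eq_zero, ?_⟩
  rw [eW_eq hn hP hQ hdisj]
  -- unit conditions
  have hUg : UnitOn g (divOf K y) := unitOn_divOf hg0 hgy
  have hUg' : UnitOn g (Divisor.pullback F' E₀) := hdy ▸ hUg
  have hUyg : UnitOn y (divOf K g) := unitOn_divOf hy0 fun w => (hgy w).symm
  have hUyq : UnitOn y q := ⟨hy0, fun w hw => (hqy w).resolve_right hw⟩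
  have hUyd : UnitOn y d := (unitOn_single hy0 hσx0 1).sub (unitOn_single hy0 hx0 1)
  -- first value
  have e1 : evD N⁻¹ E₀ = (evD g (divOf K y))⁻¹ := by
    rw [evD_inv (unitOn_norm hUg'), evD_norm hUg', hdy]
  -- second value
  have hyn : algebraMap F F' (a ^ (n / ℓ)) = y ^ n := by
    rw [map_pow, ← hy, ← pow_mul, Nat.mul_div_cancel' hℓn]
  have hnq' : n • q = d - divOf K g := by rw [hdg]; abel
  have e2 : evD (a ^ (n / ℓ)) D = evD y d / evD g (divOf K y) := by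
    rw [hD, evD_pushforward (by rw [hyn]; exact hUyq.pow n), hyn, evD_pow hUyq,
      ← evD_nsmul hUyq, hnq', evD_sub hUyd hUyg,
      weil_reciprocity hy0 hg0 fun w => (hgy w).symm]
  -- third value
  have hvx : val x y ≠ 0 := (val_ne_zero_iff x hy0 hx0.ge).mpr hx0
  have e3 : evD y d = ζ⁻¹ := by
    rw [hd, evD_sub (unitOn_single hy0 hσx0 1) (unitOn_single hy0 hx0 1), evD_single, evD_single,
      zpow_one, zpow_one]
    have h1 := val_smul_deck τ x y
    rw [hτ, val_mul _ (ord_algebraMap_nonneg _ ζ) hσx0.ge, val_algebraMap] at h1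
    rw [← h1]
    have h2 : val (σ • x) y ≠ 0 := (val_ne_zero_iff _ hy0 hσx0.ge).mpr hσx0
    field_simp
  have hG : evD g (divOf K y) ≠ 0 := evD_ne_zero hUg
  rw [e1, e2, e3]
  have : (evD g (divOf K y))⁻¹ / (ζ⁻¹ / evD g (divOf K y)) = ζ := by
    field_simp
  rw [this]
  exact hζ1

end core

/-- the prime order case. -/
theorem eW_nondeg_prime {n ℓ : ℕ} (hn : 0 < n) (hℓ : ℓ.Prime) (hℓn : ℓ ∣ n)
    (hdiv : ∀ (F' : Type v) [Field F'] [Algebra K F'] [IsFF1 K F'] (c : Pic0 K F'),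
      ∃ b : Pic0 K F', n • b = c)
    {Q : Pic0 K F} (hQ : ℓ • Q = 0) (hQ0 : Q ≠ 0) : ∃ P : Pic0 K F, n • P = 0 ∧ eW n P Q ≠ 1 := by
  obtain ⟨E₀, hE₀, rfl⟩ := cls_surjective Q
  have hℓE : Divisor.degree (ℓ • E₀) = 0 := by rw [map_nsmul, hE₀, smul_zero]
  rw [← cls_nsmul hE₀, cls_eq_zero_iff hℓE] at hQ
  obtain ⟨a, ha0, ha⟩ := hQ
  have ha' : ∀ v : Place K F, v.ord a = ℓ * E₀ v := by
    intro v
    rw [← ha v]
    simp
  have hℓ' : (ℓ : ℤ) ≠ 0 := by exact_mod_cast hℓ.ne_zero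
  have hpow : ∀ b : F, b ^ ℓ ≠ a := by
    rintro b rfl
    apply hQ0
    rw [cls_eq_zero_iff hE₀]
    refine ⟨b, fun hb => ha0 (by rw [hb, zero_pow hℓ.ne_zero]), fun v => ?_⟩
    have h1 := ha' v
    rw [ord_pow] at h1
    exact (mul_left_cancel₀ hℓ' h1).symm
  obtain ⟨F', _, _, _, _, _, _, y, τ, ζ, hy, hζ0, hζ1, hτ⟩ :=
    exists_cyclic_cover (K := K) hℓ hpow
  exact nondeg_core hn hℓ.pos hℓn (hdiv F') hE₀ ha0 ha' τ hy hζ0 hζ1 hτ

theorem eW_nondeg_of_div {n : ℕ} (hn : 0 < n)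
    (hdiv : ∀ (F' : Type v) [Field F'] [Algebra K F'] [IsFF1 K F'] (c : Pic0 K F'),
      ∃ b : Pic0 K F', n • b = c)
    {Q : Pic0 K F} (hQ : n • Q = 0) (hQ0 : Q ≠ 0) : ∃ P : Pic0 K F, n • P = 0 ∧ eW n P Q ≠ 1 := by
  set d := addOrderOf Q with hd
  have hdn : d ∣ n := addOrderOf_dvd_of_nsmul_eq_zero hQ
  have hd0 : 0 < d := Nat.pos_of_dvd_of_pos hdn hn
  have hd1 : d ≠ 1 := by
    intro h
    exact hQ0 (AddMonoid.addOrderOf_eq_one_iff.mp h)
  set ℓ := d.minFac with hℓdef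
  have hℓ : ℓ.Prime := Nat.minFac_prime hd1
  have hℓd : ℓ ∣ d := Nat.minFac_dvd d
  have hQ1 : ℓ • ((d / ℓ) • Q) = 0 := by
    rw [smul_smul, Nat.mul_div_cancel' hℓd, hd, addOrderOf_nsmul_eq_zero]
  have hQ10 : (d / ℓ) • Q ≠ 0 := by
    intro h
    have h1 : d ∣ d / ℓ := addOrderOf_dvd_of_nsmul_eq_zero h
    have h2 : 0 < d / ℓ := Nat.div_pos (Nat.le_of_dvd hd0 hℓd) hℓ.pos
    have h3 : d / ℓ < d := Nat.div_lt_self hd0 hℓ.one_lt
    exact absurd (Nat.le_of_dvd h2 h1) (not_le.mpr h3)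
  obtain ⟨P, hP, hPQ⟩ := eW_nondeg_prime hn hℓ (hℓd.trans hdn) hdiv hQ1 hQ10
  refine ⟨P, hP, fun h => hPQ ?_⟩
  rw [eW_nsmul_right hn hP hQ, h, one_pow]

end Fermat.Agent.S19.W
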