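import Fermat.Agent.S19.W.PairingCore

/-!
# S19 / W6b : formal properties of the Weil pairing (all from `eW_eq`, `exists_isRep`)
-/

set_option autoImplicit false

noncomputable section

namespace Fermat.Agent.S19.W

open AlgebraicCurve IntermediateField Fermat.Agent.S24.FF Fermat.Agent.S27 Fermat.Agent.GAL.FF

section Rep

variable {K F : Type*} [Field K] [Field F] [Algebra K F]

theorem pairing_disj_symm {D E : Divisor K F} (h : DisjD D E) : DisjD E D := fun v => (h v).symm

theorem pairing_disj_of_support {D E : Divisor K F} (h : ∀ v ∈ D.support, E v = 0) : DisjD D E := by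
  intro v
  by_cases hv : D v = 0
  · exact Or.inl hv
  · exact Or.inr (h v (Finsupp.mem_support_iff.mpr hv))

theorem pairing_disj_add_right {D E E' : Divisor K F} (h : DisjD D E) (h' : DisjD D E') :
    DisjD D (E + E') := by
  intro v
  rcases h v with h1 | h1
  · exact Or.inl h1
  · rcases h' v with h2 | h2
    · exact Or.inl h2
    · exact Or.inr (by rw [Finsupp.add_apply, h1, h2, add_zero])

theorem pairing_disj_nsmul_left {D E : Divisor K F} (h : DisjD D E) (m : ℕ) : DisjD (m • D) E := by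
  intro v
  rcases h v with h1 | h1
  · exact Or.inl (by rw [Finsupp.smul_apply, h1, smul_zero])
  · exact Or.inr h1

theorem pairing_ord_pow (v : Place K F) {u : F} (hu : u ≠ 0) (m : ℕ) : v.ord (u ^ m) = m * v.ord u := by
  induction m with
  | zero => simp
  | succ m ih =>
    rw [pow_succ, v.ord_mul (pow_ne_zero _ hu) hu, ih]
    push_cast
    ring

theorem IsRep.pairing_add {n : ℕ} {P P' : Pic0 K F} {D D' : Divisor K F} {u u' : F}
    (h : IsRep n P D u) (h' : IsRep n P' D' u') : IsRep n (P + P') (D + D') (u * u') where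
  deg := by rw [map_add, h.deg, h'.deg, add_zero]
  cls_eq := by rw [cls_add h.deg h'.deg, h.cls_eq, h'.cls_eq]
  ne := mul_ne_zero h.ne h'.ne
  ord v := by rw [v.ord_mul h.ne h'.ne, h.ord, h'.ord, Finsupp.add_apply, mul_add]

theorem pairing_isRep_zero (n : ℕ) : IsRep n (0 : Pic0 K F) (0 : Divisor K F) (1 : F) where
  deg := map_zero _
  cls_eq := cls_zero
  ne := one_ne_zero
  ord v := by simp

/-- change of level, left. -/
theorem IsRep.pairing_level_left {n m : ℕ} {P : Pic0 K F} {D : Divisor K F} {u : F}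
    (h : IsRep (n * m) P D u) : IsRep n (m • P) (m • D) u where
  deg := by rw [map_nsmul, h.deg, smul_zero]
  cls_eq := by rw [cls_nsmul h.deg, h.cls_eq]
  ne := h.ne
  ord v := by
    rw [h.ord, Finsupp.smul_apply, nsmul_eq_mul]
    push_cast
    ring

/-- change of level, right. -/
theorem IsRep.pairing_level_right {n : ℕ} (m : ℕ) {Q : Pic0 K F} {E : Divisor K F} {w : F}
    (h : IsRep n Q E w) : IsRep (n * m) Q E (w ^ m) where
  deg := h.deg
  cls_eq := h.cls_eq
  ne := pow_ne_zero _ h.ne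
  ord v := by
    rw [pairing_ord_pow v h.ne, h.ord]
    push_cast
    ring

theorem pairing_disj_semi (g : SemilinearAut K F) {D E : Divisor K F} (h : DisjD D E) :
    DisjD (g • D) (g • E) := by
  intro v
  rw [SemilinearAut.divisor_smul_apply, SemilinearAut.divisor_smul_apply]
  exact h _

end Rep

variable {K F : Type*} [Field K] [Field F] [Algebra K F] [IsAlgClosed K] [IsFF1 K F]

theorem IsRep.pairing_semi (g : SemilinearAut K F) {n : ℕ} {P : Pic0 K F} {D : Divisor K F} {u : F}
    (h : IsRep n P D u) : IsRep n (g • P) (g • D) (g • u) where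
  deg := by rw [SemilinearAut.degree_smul, h.deg]
  cls_eq := by rw [cls_semi, h.cls_eq]
  ne := by
    intro h0
    exact h.ne ((smul_eq_zero_iff_eq g).mp h0)
  ord v := by
    have h1 := SemilinearAut.ord_smul g (g⁻¹ • v) u
    rw [smul_inv_smul] at h1
    rw [h1, h.ord, SemilinearAut.divisor_smul_apply]

/-- two disjoint representatives. -/
theorem pairing_exists_reps {n n' : ℕ} {P Q : Pic0 K F} (hP : n • P = 0) (hQ : n' • Q = 0) :
    ∃ (D E : Divisor K F) (u w : F), IsRep n P D u ∧ IsRep n' Q E w ∧ DisjD D E := by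
  obtain ⟨D, u, hD, -⟩ := exists_isRep hP ∅
  obtain ⟨E, w, hE, hdis⟩ := exists_isRep hQ D.support
  exact ⟨D, E, u, w, hD, hE, pairing_disj_of_support hdis⟩

theorem eW_add_right {n : ℕ} (hn : 0 < n) {P Q Q' : Pic0 K F} (hP : n • P = 0) (hQ : n • Q = 0)
    (hQ' : n • Q' = 0) : eW n P (Q + Q') = eW n P Q * eW n P Q' := by
  obtain ⟨D, u, hD, -⟩ := exists_isRep hP ∅
  obtain ⟨E, w, hE, hdis⟩ := exists_isRep hQ D.support
  obtain ⟨E', w', hE', hdis'⟩ := exists_isRep hQ' D.support
  have d1 : DisjD D E := pairing_disj_of_support hdis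
  have d2 : DisjD D E' := pairing_disj_of_support hdis'
  rw [eW_eq hn hD (hE.pairing_add hE') (pairing_disj_add_right d1 d2), eW_eq hn hD hE d1,
    eW_eq hn hD hE' d2, evD_add (hD.unitOn d1) (hD.unitOn d2),
    evD_mul (hE.unitOn (pairing_disj_symm d1)) (hE'.unitOn (pairing_disj_symm d2)), mul_div_mul_comm]

theorem eW_swap {n : ℕ} (hn : 0 < n) (P Q : Pic0 K F) : eW n Q P = (eW n P Q)⁻¹ := by
  by_cases hP : n • P = 0
  · by_cases hQ : n • Q = 0
    · obtain ⟨D, E, u, w, hD, hE, d⟩ := pairing_exists_reps hP hQ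
      rw [eW_eq hn hD hE d, eW_eq hn hE hD (pairing_disj_symm d), inv_div]
    · rw [eW_of_not_left hQ, eW_of_not_right P hQ, inv_one]
  · rw [eW_of_not_left hP, eW_of_not_right Q hP, inv_one]

theorem eW_add_left {n : ℕ} (hn : 0 < n) {P P' Q : Pic0 K F} (hP : n • P = 0) (hP' : n • P' = 0)
    (hQ : n • Q = 0) : eW n (P + P') Q = eW n P Q * eW n P' Q := by
  rw [eW_swap hn Q (P + P'), eW_add_right hn hQ hP hP', mul_inv, ← eW_swap hn Q P, ← eW_swap hn Q P']

theorem eW_zero_right {n : ℕ} (hn : 0 < n) (P : Pic0 K F) : eW n P 0 = 1 := by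
  by_cases hP : n • P = 0
  · obtain ⟨D, u, hD, -⟩ := exists_isRep hP ∅
    rw [eW_eq hn hD (pairing_isRep_zero n) (fun v => Or.inr rfl), evD_zero, evD_one, div_one]
  · exact eW_of_not_left hP 0

theorem eW_zero_left {n : ℕ} (hn : 0 < n) (Q : Pic0 K F) : eW n 0 Q = 1 := by
  rw [eW_swap hn Q 0, eW_zero_right hn, inv_one]

theorem eW_pow_eq_one {n : ℕ} (hn : 0 < n) (P Q : Pic0 K F) : eW n P Q ^ n = 1 := by
  by_cases hP : n • P = 0
  · by_cases hQ : n • Q = 0
    · obtain ⟨D, E, u, w, hD, hE, d⟩ := pairing_exists_reps hP hQ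
      have hu : UnitOn u E := hD.unitOn d
      have hw : UnitOn w D := hE.unitOn (pairing_disj_symm d)
      have e1 : n • E = divOf K w := by
        ext v
        rw [Finsupp.smul_apply, divOf_apply, hE.ord, nsmul_eq_mul]
      have e2 : n • D = divOf K u := by
        ext v
        rw [Finsupp.smul_apply, divOf_apply, hD.ord, nsmul_eq_mul]
      have hdisj : ∀ v : Place K F, v.ord u = 0 ∨ v.ord w = 0 := by
        intro v
        rcases d v with h | h
        · exact Or.inl (by rw [hD.ord, h, mul_zero])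
        · exact Or.inr (by rw [hE.ord, h, mul_zero])
      rw [eW_eq hn hD hE d, div_pow, ← evD_nsmul hu, ← evD_nsmul hw, e1, e2,
        weil_reciprocity hD.ne hE.ne hdisj]
      refine div_self ?_
      rw [← e2]
      exact evD_ne_zero (hw.nsmul n)
    · rw [eW_of_not_right P hQ, one_pow]
  · rw [eW_of_not_left hP, one_pow]

theorem eW_nsmul_right {n : ℕ} (hn : 0 < n) {P Q : Pic0 K F} (hP : n • P = 0) (hQ : n • Q = 0)
    (m : ℕ) : eW n P (m • Q) = eW n P Q ^ m := by
  induction m with
  | zero => rw [zero_nsmul, eW_zero_right hn, pow_zero]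
  | succ m ih =>
    rw [succ_nsmul, eW_add_right hn hP (by rw [smul_comm, hQ, smul_zero]) hQ, ih, pow_succ]

/-- Galois equivariance. -/
theorem eW_semi {n : ℕ} (hn : 0 < n) (g : SemilinearAut K F) (P Q : Pic0 K F) :
    eW n (g • P) (g • Q) = SemilinearAut.baseAut g (eW n P Q) := by
  have hne : ∀ R : Pic0 K F, n • R ≠ 0 → n • (g • R) ≠ 0 := by
    intro R hR h0
    have h1 : g • (n • R) = n • (g • R) := by
      have := SemilinearAut.smul_zsmul g (n : ℤ) R
      simpa using this
    rw [← h1] at h0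
    exact hR ((smul_eq_zero_iff_eq g).mp h0)
  by_cases hP : n • P = 0
  · by_cases hQ : n • Q = 0
    · obtain ⟨D, E, u, w, hD, hE, d⟩ := pairing_exists_reps hP hQ
      rw [eW_eq hn hD hE d, eW_eq hn (hD.pairing_semi g) (hE.pairing_semi g) (pairing_disj_semi g d),
        evD_semi, evD_semi, map_div₀]
    · rw [eW_of_not_right P hQ, eW_of_not_right _ (hne Q hQ), map_one]
  · rw [eW_of_not_left hP, eW_of_not_left (hne P hP), map_one]

/-- change of level. -/
theorem eW_mul_level {n m : ℕ} (hn : 0 < n) (hm : 0 < m) {P Q : Pic0 K F} (hP : (n * m) • P = 0)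
    (hQ : n • Q = 0) : eW (n * m) P Q = eW n (m • P) Q := by
  obtain ⟨D, E, u, w, hD, hE, d⟩ := pairing_exists_reps hP hQ
  have hw : UnitOn w D := hE.unitOn (pairing_disj_symm d)
  rw [eW_eq (Nat.mul_pos hn hm) hD (hE.pairing_level_right m) d,
    eW_eq hn hD.pairing_level_left hE (pairing_disj_nsmul_left d m), evD_pow hw, evD_nsmul hw]

end Fermat.Agent.S19.W
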