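import Fermat.Agent.S19.W.Reciprocity

/-!
# S19 / W6a : the Weil pairing is independent of the representatives

Step (right): `(D,u)` fixed, `(E,w)`, `(E',w')` representatives of `Q` disjoint from `D`: `E' = E + div h`,
`w' = c w h^n` (`exists_const_mul`), `u(E') = u(E) u(div h)`, `w'(D) = c^0 w(D) h(D)^n = w(D) h(div u)`,
and `u(div h) = h(div u)` by reciprocity.  Step (left): symmetric.  General case: choose `(E'',w'')` disjoint from
`D` and `D'` (`exists_isRep`) and go `(D,E) → (D,E'') → (D',E'') → (D',E')`.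
-/

set_option autoImplicit false

noncomputable section

namespace Fermat.Agent.S19.W

open AlgebraicCurve IntermediateField Fermat.Agent.S24.FF Fermat.Agent.S27 Fermat.Agent.GAL.FF

variable {K F : Type*} [Field K] [Field F] [Algebra K F] [IsAlgClosed K] [IsFF1 K F]

theorem exists_isRep {n : ℕ} {P : Pic0 K F} (hP : n • P = 0) (S : Finset (Place K F)) :
    ∃ (D : Divisor K F) (u : F), IsRep n P D u ∧ ∀ v ∈ S, D v = 0 := by
  obtain ⟨D₀, hD₀, hcls⟩ := cls_surjective P
  obtain ⟨h, hh, hS⟩ := exists_move D₀ S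
  have hdeg : Divisor.degree (D₀ + divOf K h) = 0 := by
    rw [map_add, hD₀, degree_divOf, add_zero]
  have hc : cls (D₀ + divOf K h) = P := by
    rw [cls_add hD₀ (degree_divOf h), hcls,
      (cls_eq_zero_iff (degree_divOf h)).2 ⟨h, hh, fun v => rfl⟩, add_zero]
  have hdegn : Divisor.degree (n • (D₀ + divOf K h)) = 0 := by
    rw [map_nsmul, hdeg, smul_zero]
  have h0 : cls (n • (D₀ + divOf K h)) = 0 := by
    rw [cls_nsmul hdeg, hc, hP]
  obtain ⟨u, hu, hord⟩ := (cls_eq_zero_iff hdegn).1 h0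
  refine ⟨D₀ + divOf K h, u, ⟨hdeg, hc, hu, fun v => ?_⟩, hS⟩
  rw [← hord v, Finsupp.smul_apply, nsmul_eq_mul]

theorem IsRep.nsmul_eq_zero {n : ℕ} {P : Pic0 K F} {D : Divisor K F} {u : F} (h : IsRep n P D u) :
    n • P = 0 := by
  have hdegn : Divisor.degree (n • D) = 0 := by
    rw [map_nsmul, h.deg, smul_zero]
  rw [← h.cls_eq, ← cls_nsmul h.deg, cls_eq_zero_iff hdegn]
  refine ⟨u, h.ne, fun v => ?_⟩
  rw [h.ord v, Finsupp.smul_apply, nsmul_eq_mul]

theorem IsRep.unitOn {n : ℕ} {P : Pic0 K F} {D E : Divisor K F} {u : F} (h : IsRep n P D u)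
    (hd : DisjD D E) : UnitOn u E := by
  refine ⟨h.ne, fun v hv => ?_⟩
  rw [h.ord v, (hd v).resolve_right hv, mul_zero]

omit [IsAlgClosed K] [IsFF1 K F] in
private theorem pairingcore_disj_symm {D E : Divisor K F} (hd : DisjD D E) : DisjD E D :=
  fun v => (hd v).symm

omit [IsAlgClosed K] in
private theorem pairingcore_divOf_eq {n : ℕ} {P : Pic0 K F} {D : Divisor K F} {u : F}
    (h : IsRep n P D u) : divOf K u = n • D := by
  ext v
  rw [divOf_apply, h.ord v, Finsupp.smul_apply, nsmul_eq_mul]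

/-- step (right) -/
private theorem pairingcore_right {n : ℕ} {P Q : Pic0 K F} {D E E' : Divisor K F} {u w w' : F}
    (hP : IsRep n P D u) (hQ : IsRep n Q E w) (hQ' : IsRep n Q E' w') (hd : DisjD D E)
    (hd' : DisjD D E') : evD u E / evD w D = evD u E' / evD w' D := by
  obtain ⟨h, hh, hord⟩ := (cls_eq_iff hQ'.deg hQ.deg).1 (hQ'.cls_eq.trans hQ.cls_eq.symm)
  have hE' : E' = E + divOf K h := by
    ext v
    rw [Finsupp.add_apply, divOf_apply, ← hord v]
    ring
  have hwh : w * h ^ n ≠ 0 := mul_ne_zero hQ.ne (pow_ne_zero _ hh)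
  obtain ⟨c, hc, hw'⟩ := exists_const_mul (K := K) hwh hQ'.ne (fun v => by
    rw [v.ord_mul hQ.ne (pow_ne_zero _ hh), ord_pow, hQ.ord v, hQ'.ord v, ← hord v]
    ring)
  have hhD : UnitOn h D := by
    refine ⟨hh, fun v hv => ?_⟩
    rw [← hord v, (hd v).resolve_left hv, (hd' v).resolve_left hv, sub_zero]
  have huE : UnitOn u E := hP.unitOn hd
  have huh : UnitOn u (divOf K h) := by
    refine unitOn_divOf hP.ne (fun v => ?_)
    by_cases hv : D v = 0
    · left
      rw [hP.ord v, hv, mul_zero]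
    · right
      exact hhD.2 v hv
  have hwD : UnitOn w D := hQ.unitOn (pairingcore_disj_symm hd)
  have hrec : evD u (divOf K h) = evD h (divOf K u) := by
    refine weil_reciprocity hP.ne hh (fun v => ?_)
    by_cases hv : D v = 0
    · left
      rw [hP.ord v, hv, mul_zero]
    · right
      exact hhD.2 v hv
  have h1 : evD u E' = evD u E * evD u (divOf K h) := by
    rw [hE', evD_add huE huh]
  have h2 : evD w' D = evD w D * evD u (divOf K h) := by
    rw [hw', evD_mul (unitOn_algebraMap hc D) (hwD.mul (hhD.pow n)), evD_algebraMap hc, hP.deg,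
      zpow_zero, one_mul, evD_mul hwD (hhD.pow n), evD_pow hhD, hrec, pairingcore_divOf_eq hP,
      evD_nsmul hhD]
  rw [h1, h2, mul_div_mul_right _ _ (evD_ne_zero huh)]

/-- step (left) -/
private theorem pairingcore_left {n : ℕ} {P Q : Pic0 K F} {D D' E : Divisor K F} {u u' w : F}
    (hP : IsRep n P D u) (hP' : IsRep n P D' u') (hQ : IsRep n Q E w) (hd : DisjD D E)
    (hd' : DisjD D' E) : evD u E / evD w D = evD u' E / evD w D' := by
  have h := pairingcore_right hQ hP hP' (pairingcore_disj_symm hd) (pairingcore_disj_symm hd')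
  rw [← inv_div (evD w D), ← inv_div (evD w D'), h]

/-- the general case -/
private theorem pairingcore_indep {n : ℕ} {P Q : Pic0 K F} {D D' E E' : Divisor K F}
    {u u' w w' : F} (hP : IsRep n P D u) (hP' : IsRep n P D' u') (hQ : IsRep n Q E w)
    (hQ' : IsRep n Q E' w') (hd : DisjD D E) (hd' : DisjD D' E') :
    evD u E / evD w D = evD u' E' / evD w' D' := by
  classical
  obtain ⟨E'', w'', hQ'', hS⟩ := exists_isRep hQ.nsmul_eq_zero (D.support ∪ D'.support)
  have hd1 : DisjD D E'' := by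
    intro v
    by_cases hv : D v = 0
    · exact Or.inl hv
    · exact Or.inr (hS v (Finset.mem_union_left _ (Finsupp.mem_support_iff.2 hv)))
  have hd2 : DisjD D' E'' := by
    intro v
    by_cases hv : D' v = 0
    · exact Or.inl hv
    · exact Or.inr (hS v (Finset.mem_union_right _ (Finsupp.mem_support_iff.2 hv)))
  rw [pairingcore_right hP hQ hQ'' hd hd1, pairingcore_left hP hP' hQ'' hd1 hd2,
    pairingcore_right hP' hQ'' hQ' hd2 hd']

private theorem pairingcore_eW_eq {n : ℕ} {P Q : Pic0 K F} {D E : Divisor K F} {u w : F}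
    (hP : IsRep n P D u) (hQ : IsRep n Q E w) (hd : DisjD D E) :
    eW n P Q = evD u E / evD w D := by
  have h : ∃ (D E : Divisor K F) (u w : F), IsRep n P D u ∧ IsRep n Q E w ∧ DisjD D E :=
    ⟨D, E, u, w, hP, hQ, hd⟩
  unfold eW
  rw [dif_pos h]
  obtain ⟨h1, h2, h3⟩ := h.choose_spec.choose_spec.choose_spec.choose_spec
  exact pairingcore_indep h1 hP h2 hQ h3 hd

/-- independence of the representatives. -/
theorem eW_eq {n : ℕ} (hn : 0 < n) {P Q : Pic0 K F} {D E : Divisor K F} {u w : F}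
    (hP : IsRep n P D u) (hQ : IsRep n Q E w) (hd : DisjD D E) :
    eW n P Q = evD u E / evD w D :=
  pairingcore_eW_eq hP hQ hd

theorem eW_of_not_left {n : ℕ} {P : Pic0 K F} (hP : n • P ≠ 0) (Q : Pic0 K F) : eW n P Q = 1 := by
  unfold eW
  rw [dif_neg]
  rintro ⟨D, E, u, w, h1, -, -⟩
  exact hP h1.nsmul_eq_zero

theorem eW_of_not_right {n : ℕ} (P : Pic0 K F) {Q : Pic0 K F} (hQ : n • Q ≠ 0) : eW n P Q = 1 := by
  unfold eW
  rw [dif_neg]
  rintro ⟨D, E, u, w, -, h2, -⟩
  exact hQ h2.nsmul_eq_zero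

theorem eW_ne_zero (n : ℕ) (P Q : Pic0 K F) : eW n P Q ≠ 0 := by
  by_cases h : ∃ (D E : Divisor K F) (u w : F), IsRep n P D u ∧ IsRep n Q E w ∧ DisjD D E
  · obtain ⟨D, E, u, w, hP, hQ, hd⟩ := h
    rw [pairingcore_eW_eq hP hQ hd]
    exact div_ne_zero (evD_ne_zero (hP.unitOn hd))
      (evD_ne_zero (hQ.unitOn (pairingcore_disj_symm hd)))
  · unfold eW
    rw [dif_neg h]
    exact one_ne_zero

end Fermat.Agent.S19.W
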