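import Fermat.Agent.S19.W.EvD

/-!
# S19 / W4 : Weil reciprocity for `(h, t)` on the rational function field `K(t)`

`deg (poleDiv t) = [F : K(t)] = 1` (`GAL.FF.degree_poleDiv`), so `t` has a unique simple pole `P_∞`; the same for
`1/(t-a)` (`S24.FF.adjoin_sub_algebraMap`, `adjoin_inv`): `div (t - a) = P_a - P_∞`.  Every `h ∈ K(t)` is
`p(t)/q(t)` (`IntermediateField.mem_adjoin_simple_iff`), `p`, `q` split.  With `h = c ∏ (t - a_i)^(m_i)`,
`a_i ≠ 0`, `∑ m_i = 0`: `h(P_0) = c ∏ (-a_i)^(m_i)`, `h(P_∞) = c`, `t(div h) = ∏ a_i^(m_i)`.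
-/

set_option autoImplicit false

noncomputable section

namespace Fermat.Agent.S19.W

open AlgebraicCurve IntermediateField Fermat.Agent.S24.FF Fermat.Agent.S27 Fermat.Agent.GAL.FF

variable {K F : Type*} [Field K] [Field F] [Algebra K F] [IsAlgClosed K]

omit [IsAlgClosed K] in
theorem rational_isFF1_aux {g : F} (hg : Transcendental K g) : IsFF1 K K⟮g⟯ := by
  refine ⟨AdjoinSimple.gen K g, ?_, ?_⟩
  · rw [← transcendental_algebraMap_iff (algebraMap K⟮g⟯ F).injective, AdjoinSimple.algebraMap_gen]
    exact hg
  · have htop : K⟮AdjoinSimple.gen K g⟯ = ⊤ := by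
      apply IntermediateField.lift_injective
      rw [lift_adjoin_simple, lift_top, AdjoinSimple.coe_gen]
    rw [htop]
    exact Module.finite_of_finrank_pos (by rw [IntermediateField.finrank_top]; exact one_pos)

set_option linter.unusedSectionVars false in
theorem isFF1_adjoin_simple {g : F} (hg : Transcendental K g) : IsFF1 K K⟮g⟯ :=
  rational_isFF1_aux hg

/-! ### the places of `K(t)` -/

omit [IsAlgClosed K] in
/-- a generator `u` of the rational function field has a unique zero, and it is simple. -/
theorem rational_exists_unique_zero [IsFF1 K F] {u : F} (hu : Transcendental K u)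
    (hutop : K⟮u⟯ = ⊤) :
    ∃ v : Place K F, v.ord u = 1 ∧ ∀ w : Place K F, 0 < w.ord u → w = v := by
  classical
  have h1 : Module.finrank K⟮u⟯ F = 1 := by rw [hutop, IntermediateField.finrank_top]
  obtain ⟨v, hv⟩ := exists_place_ord_pos hu
  refine ⟨v, ?_, fun w hw => ?_⟩
  · have h2 := sum_ord_le_finrank hu {v} (by simpa using hv)
    rw [h1, Finset.sum_singleton] at h2
    push_cast at h2
    omega
  · by_contra hne
    have h2 := sum_ord_le_finrank hu {w, v} (by
      intro x hx
      rw [Finset.mem_insert, Finset.mem_singleton] at hx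
      rcases hx with rfl | rfl
      · exact hw
      · exact hv)
    rw [h1, Finset.sum_pair hne] at h2
    push_cast at h2
    omega

section places

variable [IsFF1 K F] {t : F} (ht : Transcendental K t) (htop : K⟮t⟯ = ⊤)

/-- the place `t = a`. -/
def ratPl (a : K) : Place K F :=
  (rational_exists_unique_zero (transcendental_sub_algebraMap ht a)
    ((adjoin_sub_algebraMap t a).trans htop)).choose

/-- the place `t = ∞`. -/
def ratInf : Place K F :=
  (rational_exists_unique_zero (transcendental_inv ht) ((adjoin_inv t).trans htop)).choose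

omit [IsAlgClosed K] in
theorem rational_ord_pl_self (a : K) : (ratPl ht htop a).ord (t - algebraMap K F a) = 1 :=
  (rational_exists_unique_zero (transcendental_sub_algebraMap ht a)
    ((adjoin_sub_algebraMap t a).trans htop)).choose_spec.1

omit [IsAlgClosed K] in
theorem rational_eq_pl {w : Place K F} {a : K} (h : 0 < w.ord (t - algebraMap K F a)) :
    w = ratPl ht htop a :=
  (rational_exists_unique_zero (transcendental_sub_algebraMap ht a)
    ((adjoin_sub_algebraMap t a).trans htop)).choose_spec.2 w h

omit [IsAlgClosed K] in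
theorem rational_ord_inf : (ratInf ht htop).ord t = -1 := by
  have h := (rational_exists_unique_zero (transcendental_inv ht)
    ((adjoin_inv t).trans htop)).choose_spec.1
  rw [Place.ord_inv] at h
  change -(ratInf ht htop).ord t = 1 at h
  omega

omit [IsAlgClosed K] in
theorem rational_eq_inf {w : Place K F} (h : w.ord t < 0) : w = ratInf ht htop :=
  (rational_exists_unique_zero (transcendental_inv ht)
    ((adjoin_inv t).trans htop)).choose_spec.2 w (by rw [Place.ord_inv]; omega)

omit [IsAlgClosed K] [IsFF1 K F] in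
include ht in
theorem rational_sub_ne_zero (a : K) : t - algebraMap K F a ≠ 0 := fun h =>
  transcendental_sub_algebraMap ht a (h ▸ isAlgebraic_zero)

omit [IsAlgClosed K] [IsFF1 K F] in
include ht in
theorem rational_ne_zero : t ≠ 0 := fun h => ht (h ▸ isAlgebraic_zero)

theorem rational_cases (w : Place K F) : w = ratInf ht htop ∨ ∃ a, w = ratPl ht htop a := by
  rcases lt_or_ge (w.ord t) 0 with h | h
  · exact Or.inl (rational_eq_inf ht htop h)
  · right
    rcases val_spec' w h with h1 | h1
    · exact absurd h1 (rational_sub_ne_zero ht _)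
    · exact ⟨_, rational_eq_pl ht htop h1⟩

omit [IsAlgClosed K] in
theorem rational_ord_pl {c a : K} (hca : c ≠ a) :
    (ratPl ht htop c).ord (t - algebraMap K F a) = 0 := by
  have e : t - algebraMap K F a = algebraMap K F (c - a) + (t - algebraMap K F c) := by
    rw [map_sub]
    ring
  have hne : algebraMap K F (c - a) ≠ 0 := by
    rw [Ne, map_eq_zero_iff _ (algebraMap K F).injective]
    exact sub_ne_zero.2 hca
  rw [e, ord_add_eq_of_lt _ hne (rational_sub_ne_zero ht c), ord_algebraMap]
  rw [ord_algebraMap, rational_ord_pl_self]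
  exact one_pos

omit [IsAlgClosed K] in
theorem rational_ord_inf_sub (a : K) : (ratInf ht htop).ord (t - algebraMap K F a) = -1 := by
  rcases eq_or_ne a 0 with rfl | ha
  · rw [map_zero, sub_zero, rational_ord_inf]
  have hne : -algebraMap K F a ≠ 0 := by
    rw [Ne, neg_eq_zero, map_eq_zero_iff _ (algebraMap K F).injective]
    exact ha
  rw [sub_eq_add_neg, ord_add_eq_of_lt _ (rational_ne_zero ht) hne, rational_ord_inf]
  rw [ord_neg, ord_algebraMap, rational_ord_inf]
  omega

omit [IsAlgClosed K] in
theorem rational_ord_pl_t {c : K} (hc : c ≠ 0) : (ratPl ht htop c).ord t = 0 := by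
  have h := rational_ord_pl ht htop hc
  rwa [map_zero, sub_zero] at h

omit [IsAlgClosed K] in
theorem rational_ord_pl_zero : (ratPl ht htop 0).ord t = 1 := by
  have h := rational_ord_pl_self ht htop 0
  rwa [map_zero, sub_zero] at h

omit [IsAlgClosed K] in
theorem rational_pl_ne_inf (a : K) : ratPl ht htop a ≠ ratInf ht htop := by
  intro h
  have h1 := rational_ord_pl_self ht htop a
  rw [h, rational_ord_inf_sub] at h1
  omega

omit [IsAlgClosed K] in
theorem rational_pl_injective : Function.Injective (ratPl ht htop) := by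
  intro c a h
  by_contra hca
  have h1 := rational_ord_pl ht htop hca
  rw [h, rational_ord_pl_self] at h1
  omega

theorem rational_divOf_sub (a : K) : divOf K (t - algebraMap K F a) =
    Finsupp.single (ratPl ht htop a) 1 - Finsupp.single (ratInf ht htop) 1 := by
  classical
  ext w
  rw [divOf_apply, Finsupp.sub_apply]
  rcases rational_cases ht htop w with rfl | ⟨c, rfl⟩
  · rw [rational_ord_inf_sub, Finsupp.single_eq_same,
      Finsupp.single_eq_of_ne (rational_pl_ne_inf ht htop a).symm]
    rfl
  · rw [Finsupp.single_eq_of_ne (rational_pl_ne_inf ht htop c)]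
    rcases eq_or_ne c a with rfl | hca
    · rw [rational_ord_pl_self, Finsupp.single_eq_same]
      rfl
    · rw [rational_ord_pl ht htop hca,
        Finsupp.single_eq_of_ne (fun h => hca (rational_pl_injective ht htop h))]
      rfl

theorem rational_divOf_t : divOf K t =
    Finsupp.single (ratPl ht htop 0) 1 - Finsupp.single (ratInf ht htop) 1 := by
  have h := rational_divOf_sub ht htop 0
  rwa [map_zero, sub_zero] at h

omit [IsAlgClosed K] in
theorem rational_val_pl_sub (c a : K) : val (ratPl ht htop c) (t - algebraMap K F a) = c - a := by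
  apply val_eq_of'
  right
  have e : t - algebraMap K F a - algebraMap K F (c - a) = t - algebraMap K F c := by
    rw [map_sub]
    ring
  rw [e, rational_ord_pl_self]
  exact one_pos

omit [IsAlgClosed K] in
theorem rational_val_pl_t (c : K) : val (ratPl ht htop c) t = c := by
  have h := rational_val_pl_sub ht htop c 0
  rwa [map_zero, sub_zero, sub_zero] at h

omit [IsAlgClosed K] in
theorem rational_val_inf (a b : K) :
    val (ratInf ht htop) ((t - algebraMap K F a) / (t - algebraMap K F b)) = 1 := by
  apply val_eq_of'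
  have hb := rational_sub_ne_zero ht b
  have e : (t - algebraMap K F a) / (t - algebraMap K F b) - algebraMap K F 1 =
      algebraMap K F (b - a) * (t - algebraMap K F b)⁻¹ := by
    rw [map_one, map_sub]
    field_simp
    ring
  rw [e]
  rcases eq_or_ne b a with rfl | hba
  · left
    rw [sub_self, map_zero, zero_mul]
  · right
    have hne : algebraMap K F (b - a) ≠ 0 := by
      rw [Ne, map_eq_zero_iff _ (algebraMap K F).injective]
      exact sub_ne_zero.2 hba
    rw [Place.ord_mul _ hne (inv_ne_zero hb), ord_algebraMap, Place.ord_inv, rational_ord_inf_sub]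
    omega

end places

/-! ### the class of functions for which reciprocity holds -/

section good

variable [IsFF1 K F] {t : F}

variable (K) in
/-- reciprocity holds for `(h, t)` (with disjoint supports). -/
def RatGood (t h : F) : Prop :=
  UnitOn h (divOf K t) ∧ UnitOn t (divOf K h) ∧ evD h (divOf K t) = evD t (divOf K h)

theorem RatGood.mul {h h' : F} (H : RatGood K t h) (H' : RatGood K t h') :
    RatGood K t (h * h') := by
  obtain ⟨h1, h2, h3⟩ := H
  obtain ⟨h1', h2', h3'⟩ := H'
  refine ⟨h1.mul h1', ?_, ?_⟩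
  · rw [divOf_mul h1.1 h1'.1]
    exact h2.add h2'
  · rw [divOf_mul h1.1 h1'.1, evD_mul h1 h1', evD_add h2 h2', h3, h3']

theorem RatGood.inv {h : F} (H : RatGood K t h) : RatGood K t h⁻¹ := by
  obtain ⟨h1, h2, h3⟩ := H
  refine ⟨h1.inv, ?_, ?_⟩
  · rw [divOf_inv]
    exact h2.neg
  · rw [divOf_inv, evD_inv h1, evD_neg, h3]

theorem ratGood_algebraMap (ht0 : t ≠ 0) {c : K} (hc : c ≠ 0) :
    RatGood K t (algebraMap K F c) := by
  have h0 : divOf K (algebraMap K F c) = 0 := by
    ext v
    rw [divOf_apply, ord_algebraMap]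
    rfl
  refine ⟨unitOn_algebraMap hc _, ?_, ?_⟩
  · rw [h0]
    exact UnitOn.zero ht0
  · rw [h0, evD_zero, evD_algebraMap hc, degree_divOf, zpow_zero]

theorem ratGood_frac (ht : Transcendental K t) (htop : K⟮t⟯ = ⊤) {a : K} (ha : a ≠ 0) :
    RatGood K t ((t - algebraMap K F a) / (t - algebraMap K F 1)) := by
  have ht0 := rational_ne_zero ht
  have hna := rational_sub_ne_zero ht a
  have hn1 := rational_sub_ne_zero ht (1 : K)
  have hg0 : (t - algebraMap K F a) / (t - algebraMap K F 1) ≠ 0 := div_ne_zero hna hn1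
  have hord : ∀ w : Place K F, w.ord ((t - algebraMap K F a) / (t - algebraMap K F 1)) =
      w.ord (t - algebraMap K F a) - w.ord (t - algebraMap K F 1) := by
    intro w
    rw [div_eq_mul_inv, Place.ord_mul _ hna (inv_ne_zero hn1), Place.ord_inv]
    ring
  have hoinf : (ratInf ht htop).ord ((t - algebraMap K F a) / (t - algebraMap K F 1)) = 0 := by
    rw [hord, rational_ord_inf_sub, rational_ord_inf_sub]
    ring
  have ho0 : (ratPl ht htop 0).ord ((t - algebraMap K F a) / (t - algebraMap K F 1)) = 0 := by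
    rw [hord, rational_ord_pl ht htop ha.symm, rational_ord_pl ht htop zero_ne_one]
    ring
  have hdisj : ∀ v : Place K F,
      v.ord ((t - algebraMap K F a) / (t - algebraMap K F 1)) = 0 ∨ v.ord t = 0 := by
    intro v
    rcases rational_cases ht htop v with rfl | ⟨c, rfl⟩
    · exact Or.inl hoinf
    · rcases eq_or_ne c 0 with rfl | hc
      · exact Or.inl ho0
      · exact Or.inr (rational_ord_pl_t ht htop hc)
  refine ⟨unitOn_divOf hg0 hdisj, unitOn_divOf ht0 (fun v => (hdisj v).symm), ?_⟩
  have hdiv : divOf K ((t - algebraMap K F a) / (t - algebraMap K F 1)) =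
      Finsupp.single (ratPl ht htop a) 1 - Finsupp.single (ratPl ht htop 1) 1 := by
    rw [div_eq_mul_inv, divOf_mul hna (inv_ne_zero hn1), divOf_inv, rational_divOf_sub ht htop,
      rational_divOf_sub ht htop]
    abel
  rw [hdiv, rational_divOf_t ht htop,
    evD_sub (unitOn_single hg0 ho0 1) (unitOn_single hg0 hoinf 1),
    evD_sub (unitOn_single ht0 (rational_ord_pl_t ht htop ha) 1)
      (unitOn_single ht0 (rational_ord_pl_t ht htop one_ne_zero) 1),
    evD_single, evD_single, evD_single, evD_single, zpow_one, zpow_one, zpow_one, zpow_one,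
    rational_val_inf, rational_val_pl_t, rational_val_pl_t,
    val_div _ (rational_ord_pl ht htop ha.symm).ge (rational_ord_pl ht htop zero_ne_one),
    rational_val_pl_sub, rational_val_pl_sub]
  simp

variable (K) in
/-- `x = γ t^k (t-1)^n` with `γ` good. -/
def RatDec (t x : F) : Prop :=
  ∃ (γ : F) (k n : ℕ), RatGood K t γ ∧ x = γ * t ^ k * (t - algebraMap K F 1) ^ n

theorem RatDec.mul {x y : F} (hx : RatDec K t x) (hy : RatDec K t y) : RatDec K t (x * y) := by
  obtain ⟨γ, k, n, hγ, rfl⟩ := hx
  obtain ⟨γ', k', n', hγ', rfl⟩ := hy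
  exact ⟨γ * γ', k + k', n + n', hγ.mul hγ', by ring⟩

theorem ratDec_algebraMap (ht0 : t ≠ 0) {c : K} (hc : c ≠ 0) : RatDec K t (algebraMap K F c) :=
  ⟨_, 0, 0, ratGood_algebraMap ht0 hc, by simp⟩

theorem ratDec_sub (ht : Transcendental K t) (htop : K⟮t⟯ = ⊤) (a : K) :
    RatDec K t (t - algebraMap K F a) := by
  rcases eq_or_ne a 0 with rfl | ha
  · exact ⟨_, 1, 0, ratGood_algebraMap (rational_ne_zero ht) (one_ne_zero (α := K)), by simp⟩
  · refine ⟨_, 0, 1, ratGood_frac ht htop ha, ?_⟩
    rw [pow_zero, mul_one, pow_one, div_mul_cancel₀ _ (rational_sub_ne_zero ht 1)]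

theorem ratDec_aeval (ht : Transcendental K t) (htop : K⟮t⟯ = ⊤) {p : Polynomial K} (hp : p ≠ 0) :
    RatDec K t (Polynomial.aeval t p) := by
  have h1 := (IsAlgClosed.splits p).eq_prod_roots
  have h2 : Polynomial.aeval t p = algebraMap K F p.leadingCoeff *
      (p.roots.map (fun a => t - algebraMap K F a)).prod := by
    conv_lhs => rw [h1]
    rw [map_mul, Polynomial.aeval_C, map_multiset_prod, Multiset.map_map]
    congr 3
    funext a
    simp
  rw [h2]
  refine (ratDec_algebraMap (rational_ne_zero ht) (Polynomial.leadingCoeff_ne_zero.2 hp)).mul ?_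
  refine Multiset.prod_induction _ _ (fun _ _ => RatDec.mul) ?_ ?_
  · have := ratDec_algebraMap (K := K) (rational_ne_zero ht) (one_ne_zero (α := K))
    rwa [map_one] at this
  · intro x hx
    obtain ⟨a, -, rfl⟩ := Multiset.mem_map.1 hx
    exact ratDec_sub ht htop a

end good

/-- Weil reciprocity for `(h, t)` on the rational function field `K(t)`. -/
theorem recip_rational [IsFF1 K F] {t : F} (ht : Transcendental K t) (htop : K⟮t⟯ = ⊤) {h : F}
    (hh : h ≠ 0) (hdisj : ∀ v : Place K F, v.ord h = 0 ∨ v.ord t = 0) :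
    evD h (divOf K t) = evD t (divOf K h) := by
  have ht0 := rational_ne_zero ht
  have hn1 := rational_sub_ne_zero ht (1 : K)
  have hmem : h ∈ K⟮t⟯ := by
    rw [htop]
    exact IntermediateField.mem_top
  obtain ⟨r, s, hrs⟩ := (mem_adjoin_simple_iff K h).1 hmem
  have hr : Polynomial.aeval t r ≠ 0 := by
    intro h0
    apply hh
    rw [hrs, h0, zero_div]
  have hs : Polynomial.aeval t s ≠ 0 := by
    intro h0
    apply hh
    rw [hrs, h0, div_zero]
  have hr0 : r ≠ 0 := by
    rintro rfl
    simp at hr
  have hs0 : s ≠ 0 := by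
    rintro rfl
    simp at hs
  obtain ⟨γ, k, n, hγ, e1⟩ := ratDec_aeval ht htop hr0
  obtain ⟨γ', k', n', hγ', e2⟩ := ratDec_aeval ht htop hs0
  have ord_dec : ∀ (w : Place K F) (γ : F) (k n : ℕ), γ ≠ 0 →
      w.ord (γ * t ^ k * (t - algebraMap K F 1) ^ n) =
        w.ord γ + k * w.ord t + n * w.ord (t - algebraMap K F 1) := by
    intro w γ k n hγ0
    rw [Place.ord_mul _ (mul_ne_zero hγ0 (pow_ne_zero _ ht0)) (pow_ne_zero _ hn1),
      Place.ord_mul _ hγ0 (pow_ne_zero _ ht0), ord_pow, ord_pow]
  have hordh : ∀ w : Place K F, w.ord h = w.ord γ + k * w.ord t + n * w.ord (t - algebraMap K F 1)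
      - (w.ord γ' + k' * w.ord t + n' * w.ord (t - algebraMap K F 1)) := by
    intro w
    rw [hrs, div_eq_mul_inv, Place.ord_mul _ hr (inv_ne_zero hs), Place.ord_inv, e1, e2,
      ord_dec w γ k n hγ.1.1, ord_dec w γ' k' n' hγ'.1.1]
    ring
  have g0 : ∀ {γ : F}, RatGood K t γ → (ratPl ht htop 0).ord γ = 0 := fun H =>
    H.1.2 _ (by rw [divOf_apply, rational_ord_pl_zero]; exact one_ne_zero)
  have ginf : ∀ {γ : F}, RatGood K t γ → (ratInf ht htop).ord γ = 0 := fun H =>
    H.1.2 _ (by rw [divOf_apply, rational_ord_inf]; omega)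
  have h0 : (ratPl ht htop 0).ord h = 0 := by
    rcases hdisj (ratPl ht htop 0) with h1 | h1
    · exact h1
    · rw [rational_ord_pl_zero] at h1
      omega
  have hinf : (ratInf ht htop).ord h = 0 := by
    rcases hdisj (ratInf ht htop) with h1 | h1
    · exact h1
    · rw [rational_ord_inf] at h1
      omega
  rw [hordh, g0 hγ, g0 hγ', rational_ord_pl_zero, rational_ord_pl ht htop zero_ne_one] at h0
  rw [hordh, ginf hγ, ginf hγ', rational_ord_inf, rational_ord_inf_sub] at hinf
  have hk : k = k' := by omega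
  have hn : n = n' := by omega
  have hfin : h = γ * γ'⁻¹ := by
    have hγ'0 := hγ'.1.1
    rw [hrs, e1, e2, hk, hn]
    field_simp
  rw [hfin]
  exact (hγ.mul hγ'.inv).2.2

end Fermat.Agent.S19.W
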