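import Fermat.Agent.S19.W.EvExt
import Fermat.Agent.S19.W.Rational

/-!
# S19 / W5 : Weil reciprocity `f(div g) = g(div f)`

`g` constant: both sides are `1` (`evD_algebraMap`, `degree_divOf`).  `g` transcendental: `F₀ = K⟮g⟯`,
`t = ⟨g, _⟩ ∈ F₀`, `F/F₀` finite (`S24.FF.finiteDimensional_adjoin_of_transcendental`), `h = N_{F/F₀} f`:
`f(div_F g) = f(π^* div t) = h(div t)` (`divOf_algebraMap`, `evD_norm`),
`g(div_F f) = t(π_* div f) = t(div h)` (`evD_pushforward`, `pushforward_divOf`), and `recip_rational`.
-/

set_option autoImplicit false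

noncomputable section

namespace Fermat.Agent.S19.W

open AlgebraicCurve IntermediateField Fermat.Agent.S24.FF Fermat.Agent.S27 Fermat.Agent.GAL.FF

variable {K F : Type*} [Field K] [Field F] [Algebra K F] [IsAlgClosed K]

omit [IsAlgClosed K] in
/-- the generator generates. -/
theorem reciprocity_adjoin_gen (g : F) : K⟮AdjoinSimple.gen K g⟯ = ⊤ := by
  apply IntermediateField.map_injective (K⟮g⟯.val)
  rw [IntermediateField.adjoin_map, Set.image_singleton, ← AlgHom.fieldRange_eq_map,
    IntermediateField.fieldRange_val]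
  rfl

/-- **Weil reciprocity**. -/
theorem weil_reciprocity [IsFF1 K F] {f g : F} (hf : f ≠ 0) (hg : g ≠ 0)
    (hdisj : ∀ v : Place K F, v.ord f = 0 ∨ v.ord g = 0) :
    evD f (divOf K g) = evD g (divOf K f) := by
  by_cases hgt : Transcendental K g
  · have : IsFF1 K K⟮g⟯ := isFF1_adjoin_simple hgt
    have : Module.Finite K⟮g⟯ F := finiteDimensional_adjoin_of_transcendental hgt
    have htg : algebraMap K⟮g⟯ F (AdjoinSimple.gen K g) = g := AdjoinSimple.algebraMap_gen K g
    have hh : Algebra.norm K⟮g⟯ f ≠ 0 := Algebra.norm_ne_zero_iff.2 hf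
    have e1 : evD f (divOf K g) =
        evD (Algebra.norm K⟮g⟯ f) (divOf K (AdjoinSimple.gen K g)) := by
      have hU : UnitOn f (Divisor.pullback F (divOf K (AdjoinSimple.gen K g))) := by
        rw [← divOf_algebraMap, htg]
        exact unitOn_divOf hf hdisj
      rw [evD_norm hU, ← divOf_algebraMap, htg]
    have e2 : evD g (divOf K f) =
        evD (AdjoinSimple.gen K g) (divOf K (Algebra.norm K⟮g⟯ f)) := by
      have hU : UnitOn (algebraMap K⟮g⟯ F (AdjoinSimple.gen K g)) (divOf K f) := by
        rw [htg]
        exact unitOn_divOf hg fun v => (hdisj v).symm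
      rw [← pushforward_divOf, evD_pushforward hU, htg]
    rw [e1, e2]
    refine recip_rational ?_ (reciprocity_adjoin_gen g) hh ?_
    · rw [← transcendental_algebraMap_iff (algebraMap K⟮g⟯ F).injective, htg]
      exact hgt
    · intro v
      by_cases hv : v.ord (AdjoinSimple.gen K g) = 0
      · exact Or.inr hv
      · left
        refine ord_norm_eq_zero v fun w hw => ?_
        refine (hdisj w).resolve_right ?_
        rw [← htg, w.ord_restrict, hw]
        have hpos := w.ramificationIndex_pos (F := K⟮g⟯)
        exact mul_ne_zero (by exact_mod_cast hpos.ne') hv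
  · have hint : IsIntegral K g := (not_not.1 hgt).isIntegral
    obtain ⟨c, rfl⟩ := minpoly.mem_range_of_degree_eq_one K g
      (IsAlgClosed.degree_eq_one_of_irreducible K (minpoly.irreducible hint))
    have hc : c ≠ 0 := by
      rintro rfl
      exact hg (map_zero _)
    have h0 : divOf K (algebraMap K F c) = 0 := by
      ext v
      rw [divOf_apply, Finsupp.zero_apply, ord_algebraMap]
    rw [h0, evD_zero, evD_algebraMap hc, degree_divOf, zpow_zero]

end Fermat.Agent.S19.W
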